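/-
PROJECT T (S56), Base/Pairing, LOCAL (N3), part 2 (helper22): the exponent-`p` existence theorem on
the layers of the local class formations `cfD q` of `D.Main.Datum`.

`n3_Dloc p S q` (= `n3_DlocK`, `n3_theDatum`): below every level `V₀ ∈ Uv S q` of the local Galois
group `Gv S q` there is a level `V' ∈ Uv S q`, `V' ≤ V₀`, `p ∣ [Gv S q : V']`, with
`Nm_{V₀/V'} D_q^{V'} ⊆ p • D_q^{V₀}` for `D_q = Q̄_qˣ ⊗ ℤ_(p)`: verbatim the shape of the field `n3` of
`D.Main.Datum`, for the local pair `(Uv S q, Dloc p S q)`.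

Route: `V₀ ⊇ G_K` with `K ∋ μ_p` finite normal over `ℚ_q` (`exists_level_field`);
`L := K((Kˣ)^{1/p})` (`KummerLayer.kumL`), `G_K/G_L` elementary abelian of order `[Kˣ : Kˣᵖ]`
(Kummer theory `CFT/Kummer`, finiteness `CFT/Local/PowIndexModel`); `D_q^{G_K}` is the
localisation prime to `p` of `Kˣ` (`dictZ`, `dictK`, `exists_isLocAt`: `GaloisDict.Infinite.layerLin`
+ `C7/LevelK.LayerDict.localise`), so `|D_q^{G_K}/p| = [Kˣ : Kˣᵖ] = [G_K : G_L]` and the counting
form of the existence theorem `A7.ClassFormation.n3_of_index_le` (for the local class formation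
`classFormationLocK` on the intrinsic family `levelsLoc q`) gives (N3) at `(G_K, G_L)` (`n3_kumL`);
then shrink `G_L` to a level `V'` of the prelude's family (`Realize.N3.mono`) and enlarge `G_K` to
`V₀` (`N3Assembly.N3.of_le_left`).  `p ∣ [G_K : G_L] ∣ [G : V']` because `p ∣ [Kˣ : Kˣᵖ]`.
-/
import Mathlib
import Fermat.Agent.S56.Base.Pairing.LocalN3.KummerLayer
import Fermat.Agent.CFT.C7.N3Assembly
import Fermat.Agent.CFT.C7.LevelK
import Fermat.Agent.CFT.A7.ExistenceF2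
import Fermat.Agent.CFT.D.Datum.Local
import Fermat.Agent.CFT.D.DatumInjFrob
import Fermat.Agent.CFT.D.Datum.Build
import Fermat.Agent.CFT.Local.PowIndexModel

set_option autoImplicit false

noncomputable section

namespace Fermat.Agent.S56.Base.Pairing.LocalN3

open IntermediateField
open Fermat.Agent.CFT.GaloisDict Fermat.Agent.CFT.GaloisDict.Infinite Fermat.Agent.CFT.C7.LevelK
  Fermat.Agent.CFT.LC Fermat.Agent.CFT.A7 Fermat.Agent.CFT.A7.BaseChange
  Fermat.Agent.CFT.A7.CFBaseChange Fermat.Agent.CFT.LocalBridge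
  Fermat.Agent.CFT.Local.ClassFormationLC Fermat.Agent.CFT.A7.ExistenceF2
  Fermat.Agent.CFT.A7.ExistenceP Fermat.Agent.CFT.D.Realize Fermat.Agent.CFT.D.ZpModel

variable (q : ℕ) [Fact q.Prime]

/-- The `ℤ`-level layer dictionary `(LocGal q ⧸ G_K, (Q̄_qˣ)^{G_K}) ≅ (Gal(K/ℚ_q), Kˣ)`. -/
def dictZ (K : IntermediateField ℚ_[q] (PadicAlgCl q)) [Normal ℚ_[q] K] [K.fixingSubgroup.Normal] :
    LayerDict (unitsRep ℚ_[q] (PadicAlgCl q)) K.fixingSubgroup (unitsRep ℚ_[q] ↥K) where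
  e := layerQuotEquiv K K.fixingSubgroup rfl
  e' := (layerLin K K.fixingSubgroup rfl).symm
  he := fun g => by
    have h := layer_compat K K.fixingSubgroup rfl (layerQuotEquiv K K.fixingSubgroup rfl g)
    rw [MulEquiv.symm_apply_apply] at h
    refine LinearMap.ext fun y => ?_
    apply (layerLin K K.fixingSubgroup rfl).injective
    have h2 := LinearMap.congr_fun h ((layerLin K K.fixingSubgroup rfl).symm y)
    change (layerLin K K.fixingSubgroup rfl) ((layerLin K K.fixingSubgroup rfl).symm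
      ((((unitsRep ℚ_[q] (PadicAlgCl q)).quotientToInvariants K.fixingSubgroup).ρ g) y)) =
      (layerLin K K.fixingSubgroup rfl) (((unitsRep ℚ_[q] ↥K).ρ
        ((layerQuotEquiv K K.fixingSubgroup rfl) g)) ((layerLin K K.fixingSubgroup rfl).symm y))
    change (layerLin K K.fixingSubgroup rfl) (((unitsRep ℚ_[q] ↥K).ρ
        ((layerQuotEquiv K K.fixingSubgroup rfl) g)) ((layerLin K K.fixingSubgroup rfl).symm y)) =
      (((unitsRep ℚ_[q] (PadicAlgCl q)).quotientToInvariants K.fixingSubgroup).ρ g)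
        ((layerLin K K.fixingSubgroup rfl) ((layerLin K K.fixingSubgroup rfl).symm y)) at h2
    rw [LinearEquiv.apply_symm_apply] at h2 ⊢
    exact h2.symm

section Loc

variable (p : ℕ) [Fact p.Prime] {Y : Rep.{0} (Zp p) (LocGal q)}
  {f : (unitsRep ℚ_[q] (PadicAlgCl q)).V →+ Y.V}
  (hf : IsLocRep (primeTo p) (unitsRep ℚ_[q] (PadicAlgCl q)) Y f)
  (K : IntermediateField ℚ_[q] (PadicAlgCl q)) [Normal ℚ_[q] K] [K.fixingSubgroup.Normal]

/-- The layer dictionary after localisation: `(LocGal q ⧸ G_K, Y^{G_K}) ≅ (Gal(K/ℚ_q), Kˣ ⊗ ℤ_(p))`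
for any model `Y` of `Q̄_qˣ ⊗ ℤ_(p)`. -/
def dictK : LayerDict Y K.fixingSubgroup (tensorRep (k := Zp p) (unitsRep ℚ_[q] ↥K)) :=
  (dictZ q K).localise hf (levelsLoc q) (isFin_levelsLoc q).finiteIndex
    (isSmooth_unitsRep_levelsLoc q) (isLocRep_tensorRep (primeTo p) (unitsRep ℚ_[q] ↥K))

include hf in
/-- `Y^{G_K}` is the localisation prime to `p` of `Kˣ`. -/
theorem exists_isLocAt :
    ∃ fK : Additive (↥K)ˣ →+ Representation.invariants (Y.ρ.comp K.fixingSubgroup.subtype),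
      IsLocAt p (Zp p) fK := by
  have hf0 : IsLocAt p (Zp p)
      (addHomOfRep (Γ := ↥K ≃ₐ[ℚ_[q]] ↥K) (A := (↥K)ˣ)
        (toTensorRep (k := Zp p) (unitsRep ℚ_[q] ↥K))) :=
    IsLocAt.of_isLocRep (isLocRep_tensorRep (primeTo p) (unitsRep ℚ_[q] ↥K))
  exact ⟨_, hf0.comp_equiv (dictK q p hf K).invEquiv.symm⟩

end Loc

section Index

open scoped Fermat.Agent.CFT.Local.Model

open Fermat.Agent.CFT.Local.Model Fermat.Agent.CFT.Local.PowIndex
  Fermat.Agent.CFT.Local.PowIndexModel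

variable (K : Type*) [Field K] [Algebra ℚ_[q] K] [FiniteDimensional ℚ_[q] K]

include q in
theorem index_range_pow_ne_zero {n : ℕ} (hn : n ≠ 0) :
    ((powMonoidHom n : Kˣ →* Kˣ).range).index ≠ 0 := by
  have := finite_quotient_pow q K hn
  exact Subgroup.index_ne_zero_of_finite

include q in
theorem dvd_index_range_pow {n : ℕ} (hn : n ≠ 0) :
    n ∣ ((powMonoidHom n : Kˣ →* Kˣ).range).index := by
  have h := card_quotient_pow_field (O := ↥(𝒪 q K)) K (n := n) (natCast_ne_zero q K hn)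
  rw [Subgroup.index, h, mul_assoc]
  exact dvd_mul_right _ _

end Index

section N3Kum

open KummerLayer

variable (p : ℕ) [Fact p.Prime] {Y : Rep.{0} (Zp p) (LocGal q)}
  {f : (unitsRep ℚ_[q] (PadicAlgCl q)).V →+ Y.V}
  (hf : IsLocRep (primeTo p) (unitsRep ℚ_[q] (PadicAlgCl q)) Y f)
  (K : IntermediateField ℚ_[q] (PadicAlgCl q)) [FiniteDimensional ℚ_[q] K] [Normal ℚ_[q] K]

theorem exists_pow_eq_padicAlgCl (x : PadicAlgCl q) : ∃ y : PadicAlgCl q, y ^ p = x :=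
  IsAlgClosed.exists_pow_nat_eq x (Fact.out : p.Prime).pos

/-- `K((Kˣ)^{1/p})` is a level of the intrinsic local family. -/
theorem kumL_mem_levelsLoc : (kumL p K).fixingSubgroup ∈ (levelsLoc q).sets :=
  ⟨kumL p K, finiteDimensional_kumL (index_range_pow_ne_zero q ↥K (Fact.out : p.Prime).ne_zero),
    normal_kumL, rfl⟩

include hf in
/-- **Local existence theorem of exponent `p`**: for `K ∋ μ_p` finite normal over `ℚ_q`,
`N_{L/K}(Lˣ ⊗ ℤ_(p)) ⊆ p (Kˣ ⊗ ℤ_(p))` for `L = K((Kˣ)^{1/p})`, in the shape `(N3)`, for any model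
`Y` of `Q̄_qˣ ⊗ ℤ_(p)`. -/
theorem n3_kumL (hζ : (primitiveRoots p ↥K).Nonempty) [hN : (kumL p K).fixingSubgroup.Normal]
    [Fintype (layerSub K.fixingSubgroup (kumL p K).fixingSubgroup)] :
    N3 Y ((p : ℕ) : Zp p) K.fixingSubgroup (kumL p K).fixingSubgroup := by
  have hgal : IsGalois ℚ_[q] ↥K := ⟨⟩
  have hKN : K.fixingSubgroup.Normal := IsGalois.fixingSubgroup_normal_of_isGalois K
  obtain ⟨fK, hfK⟩ := exists_isLocAt q p hf K
  have hfin := index_range_pow_ne_zero q ↥K (Fact.out : p.Prime).ne_zero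
  exact (classFormationLocK q (primeTo p) hf).n3_of_index_le (addHomsLinear p) K.fixingSubgroup
    (kumL p K).fixingSubgroup (kumL_mem_levelsLoc q p K) fixingSubgroup_kumL_le p (phi p)
    (layer_mul_comm hζ) (layer_pow_eq_one hζ) fK hfK hfin
    (le_of_eq (card_layer hζ hfin (exists_pow_eq_padicAlgCl q p)).symm)

end N3Kum

section Cofinal

variable (p : ℕ) [Fact p.Prime]

theorem exists_isPrimitiveRoot_padicAlgCl : ∃ ζ : PadicAlgCl q, IsPrimitiveRoot ζ p := by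
  have : NeZero (p : PadicAlgCl q) := ⟨Nat.cast_ne_zero.2 (Fact.out : p.Prime).ne_zero⟩
  exact HasEnoughRootsOfUnity.exists_primitiveRoot (PadicAlgCl q) p

/-- `ℚ_q(ζ_p)` is normal over `ℚ_q`. -/
theorem normal_adjoin_zeta {ζ : PadicAlgCl q} (hζ : IsPrimitiveRoot ζ p) :
    Normal ℚ_[q] (adjoin ℚ_[q] {ζ}) := by
  rw [normal_iff_forall_map_le']
  intro σ
  rw [adjoin_map, adjoin_le_iff, Set.image_singleton, Set.singleton_subset_iff]
  have h1 : ((σ : PadicAlgCl q →ₐ[ℚ_[q]] PadicAlgCl q) ζ) ^ p = 1 := by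
    rw [← map_pow, hζ.pow_eq_one, map_one]
  obtain ⟨i, -, hi⟩ := hζ.eq_pow_of_pow_eq_one h1
  rw [← hi]
  exact pow_mem (mem_adjoin_simple_self ℚ_[q] ζ) i

/-- Finite normal extensions of `ℚ_q` containing `μ_p` are cofinal. -/
theorem exists_level_field (E₀ : IntermediateField ℚ_[q] (PadicAlgCl q))
    [FiniteDimensional ℚ_[q] E₀] [Normal ℚ_[q] E₀] :
    ∃ K : IntermediateField ℚ_[q] (PadicAlgCl q), FiniteDimensional ℚ_[q] K ∧ Normal ℚ_[q] K ∧
      E₀ ≤ K ∧ (primitiveRoots p ↥K).Nonempty := by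
  obtain ⟨ζ, hζ⟩ := exists_isPrimitiveRoot_padicAlgCl q p
  have hint : IsIntegral ℚ_[q] ζ := Algebra.IsIntegral.isIntegral ζ
  have hfd : FiniteDimensional ℚ_[q] (adjoin ℚ_[q] {ζ}) := adjoin.finiteDimensional hint
  have hn : Normal ℚ_[q] (adjoin ℚ_[q] {ζ}) := normal_adjoin_zeta q p hζ
  have hζK : ζ ∈ E₀ ⊔ adjoin ℚ_[q] {ζ} :=
    (le_sup_right : adjoin ℚ_[q] {ζ} ≤ _) (mem_adjoin_simple_self ℚ_[q] ζ)
  refine ⟨E₀ ⊔ adjoin ℚ_[q] {ζ}, finiteDimensional_sup _ _, inferInstance, le_sup_left,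
    ⟨⟨ζ, hζK⟩, ?_⟩⟩
  rw [mem_primitiveRoots (Fact.out : p.Prime).pos]
  exact IsPrimitiveRoot.of_map_of_injective
    (f := algebraMap ↥(E₀ ⊔ adjoin ℚ_[q] {ζ}) (PadicAlgCl q)) hζ
    (algebraMap ↥(E₀ ⊔ adjoin ℚ_[q] {ζ}) (PadicAlgCl q)).injective

end Cofinal

section Assembly

open KummerLayer Fermat.Agent.CFT.Bridge Fermat.Agent.CFT.C7.N3Assembly

variable (p : ℕ) [Fact p.Prime] {Y : Rep.{0} (Zp p) (LocGal q)}
  {f : (unitsRep ℚ_[q] (PadicAlgCl q)).V →+ Y.V}
  (hf : IsLocRep (primeTo p) (unitsRep ℚ_[q] (PadicAlgCl q)) Y f)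

include hf in
/-- **LOCAL (N3), cofinally, on the prelude's family of levels**: below every level `V₀` of
`LocGal q` there is a level `V'` of index divisible by `p` with `Nm_{V₀/V'} Y^{V'} ⊆ p Y^{V₀}`, for
any model `Y` of `Q̄_qˣ ⊗ ℤ_(p)`. -/
theorem n3_cofinal_levelsOf :
    ∀ V₀ ∈ (levelsOf (localGaloisToGlobal q)).sets, ∃ V' : Subgroup (LocGal q), ∃ _ : V'.Normal,
      V' ∈ (levelsOf (localGaloisToGlobal q)).sets ∧ V' ≤ V₀ ∧
        ((p : ℕ) : Zp p) ∣ ((Nat.card (LocGal q ⧸ V') : ℕ) : Zp p) ∧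
        ∀ [Fintype (layerSub V₀ V')], N3 Y ((p : ℕ) : Zp p) V₀ V' := by
  classical
  intro V₀ hV₀
  obtain ⟨E₀, hE₀fd, hE₀n, rfl⟩ := levelsOf_sets_subset q hV₀
  obtain ⟨K, hKfd, hKn, hle, hζ⟩ := exists_level_field q p E₀
  have hp0 : p ≠ 0 := (Fact.out : p.Prime).ne_zero
  have hLmem := kumL_mem_levelsLoc q p K
  have hLN : (kumL p K).fixingSubgroup.Normal := (levelsLoc q).normal _ hLmem
  obtain ⟨V', hV', hV'le⟩ := levelsOf_refines_levelsLoc q _ hLmem
  have hV'N : V'.Normal := (levelsOf (localGaloisToGlobal q)).normal V' hV'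
  have hKE : K.fixingSubgroup ≤ E₀.fixingSubgroup := IntermediateField.fixingSubgroup_antitone hle
  have hLK : (kumL p K).fixingSubgroup ≤ K.fixingSubgroup := fixingSubgroup_kumL_le
  have hfin := index_range_pow_ne_zero q ↥K hp0
  refine ⟨V', hV'N, hV', hV'le.trans (hLK.trans hKE), ?_, ?_⟩
  · have h1 : p ∣ (kumL p K).fixingSubgroup.relIndex K.fixingSubgroup := by
      rw [relIndex_fixingSubgroup_kumL hζ hfin (exists_pow_eq_padicAlgCl q p)]
      exact dvd_index_range_pow q ↥K hp0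
    have h2 : (kumL p K).fixingSubgroup.relIndex K.fixingSubgroup ∣
        V'.relIndex K.fixingSubgroup := Subgroup.relIndex_dvd_of_le_left _ hV'le
    have h3 : V'.relIndex K.fixingSubgroup ∣ V'.index :=
      Subgroup.relIndex_dvd_index_of_le (hV'le.trans hLK)
    have h4 : p ∣ Nat.card (LocGal q ⧸ V') := by
      rw [← Subgroup.index_eq_card]
      exact h1.trans (h2.trans h3)
    exact Nat.cast_dvd_cast h4
  · intro _
    have hfiV' : V'.FiniteIndex :=
      (inferInstance : (levelsOf (localGaloisToGlobal q)).IsFin).finiteIndex V' hV'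
    have hfiL : (kumL p K).fixingSubgroup.FiniteIndex := (isFin_levelsLoc q).finiteIndex _ hLmem
    have : Finite (LocGal q ⧸ V') := Subgroup.finite_quotient_of_finiteIndex
    have : Finite (LocGal q ⧸ (kumL p K).fixingSubgroup) := Subgroup.finite_quotient_of_finiteIndex
    have : Fintype (layerSub K.fixingSubgroup V') := Fintype.ofFinite _
    have : Fintype (layerSub K.fixingSubgroup (kumL p K).fixingSubgroup) := Fintype.ofFinite _
    have h := n3_kumL q p hf K hζ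
    have h' := h.mono hLK V' hV'le
    exact N3.of_le_left h' E₀.fixingSubgroup hKE

end Assembly

section Datum

open Fermat.Agent.CFT.D.Reduce Fermat.Agent.CFT.D.DatumBuild Fermat.Agent.CFT.D.DatumInjFrob
  Fermat.Agent.CFT.Idele ExtCitation

variable (p : ℕ) [Fact p.Prime] (S : Finset Nat.Primes)

/-- **LOCAL (N3) for the Datum's local module** `Dloc p S q = Q̄_qˣ ⊗ ℤ_(p)` on the Datum's family
of local levels `Uv S q`: the exact shape of the field `n3` of `D.Main.Datum`, for the local class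
formation `cfDloc p S q`. -/
theorem n3_Dloc (q : ↥S) :
    ∀ V₀ ∈ (Uv S q).sets, ∃ V' : Subgroup (Gv S q), ∃ _ : V'.Normal,
      V' ∈ (Uv S q).sets ∧ V' ≤ V₀ ∧
        ((p : ℕ) : Zp p) ∣ ((Nat.card (Gv S q ⧸ V') : ℕ) : Zp p) ∧
        ∀ [Fintype (layerSub V₀ V')], N3 (Dloc p S q) ((p : ℕ) : Zp p) V₀ V' :=
  n3_cofinal_levelsOf (q.1 : ℕ) p (isLocRep_Dloc p S q)

/-- The same statement for helper23's name `DlocK S (Zp p) q` of the local module (the field
`Dloc` of `theDatum`). -/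
theorem n3_DlocK (q : ↥S) :
    ∀ V₀ ∈ (Uv S q).sets, ∃ V' : Subgroup (Gv S q), ∃ _ : V'.Normal,
      V' ∈ (Uv S q).sets ∧ V' ≤ V₀ ∧
        ((p : ℕ) : Zp p) ∣ ((Nat.card (Gv S q ⧸ V') : ℕ) : Zp p) ∧
        ∀ [Fintype (layerSub V₀ V')], N3 (DlocK S (Zp p) q) ((p : ℕ) : Zp p) V₀ V' :=
  n3_Dloc p S q

/-- The statement for the Datum built from any global inputs. -/
theorem n3_theDatum (hpS : pPrime p ∈ S) (g : GlobalInputs p S) (q : ↥S) :
    ∀ V₀ ∈ (Uv S q).sets, ∃ V' : Subgroup (Gv S q), ∃ _ : V'.Normal,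
      V' ∈ (Uv S q).sets ∧ V' ≤ V₀ ∧
        ((p : ℕ) : Zp p) ∣ ((Nat.card (Gv S q ⧸ V') : ℕ) : Zp p) ∧
        ∀ [Fintype (layerSub V₀ V')], N3 ((theDatum hpS g).Dloc q) ((p : ℕ) : Zp p) V₀ V' :=
  n3_Dloc p S q

end Datum

end Fermat.Agent.S56.Base.Pairing.LocalN3
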