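/-
PROJECT T (S56), block (a1-II) = S56/Base (helper23): THE LINEAR ALGEBRA OF THE SUM FORMULA.

* `zhom p γ hγ : ZMod p →+ T`, `a ↦ a • γ`, for an element `γ` with `p • γ = 0`;
* `exists_zhom_eq` : if the `p`-torsion of `T` has `p` elements and `γ ≠ 0`, every `p`-torsion
  element is `zhom γ a`;
* `exists_units_sum_eq_zero` : the abstract reciprocity law: a family of localisation maps
  `loc q : X →+ V q`, jointly injective, a map `g : X →+ W`, classes `e q` supported at `q` with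
  `g (e q) ≠ 0`, cyclic `p`-torsion everywhere  ⟹  units `u q` with `∑ u q * a q = 0` whenever
  `g w = 0` and `loc q w = a q • γ q`.
-/
import Fermat.Agent.CFT.D.Count

set_option autoImplicit false

noncomputable section

namespace Fermat.Agent.S56.Base.Pairing.CyclicP

open Fermat.Agent.CFT.D

variable (p : ℕ) [Fact p.Prime]

section Zhom

variable {T : Type*} [AddCommGroup T]

/-- `a ↦ a • γ` for `γ` killed by `p`. -/
def zhom (γ : T) (hγ : p • γ = 0) : ZMod p →+ T :=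
  ZMod.lift p ⟨zmultiplesHom T γ, by
    change ((p : ℕ) : ℤ) • γ = 0
    rw [natCast_zsmul]
    exact hγ⟩

variable {p}

lemma zhom_intCast (γ : T) (hγ : p • γ = 0) (n : ℤ) : zhom p γ hγ (n : ZMod p) = n • γ := by
  unfold zhom
  rw [ZMod.lift_coe]
  rfl

lemma zhom_natCast (γ : T) (hγ : p • γ = 0) (n : ℕ) : zhom p γ hγ (n : ZMod p) = n • γ := by
  have h := zhom_intCast γ hγ (n : ℤ)
  rwa [Int.cast_natCast, natCast_zsmul] at h

lemma zhom_one (γ : T) (hγ : p • γ = 0) : zhom p γ hγ 1 = γ := by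
  have h := zhom_natCast γ hγ 1
  rwa [Nat.cast_one, one_smul] at h

lemma zhom_eq_val_nsmul (γ : T) (hγ : p • γ = 0) (a : ZMod p) :
    zhom p γ hγ a = a.val • γ := by
  conv_lhs => rw [← ZMod.natCast_zmod_val a]
  exact zhom_natCast γ hγ a.val

lemma nsmul_zhom (γ : T) (hγ : p • γ = 0) (a : ZMod p) : p • zhom p γ hγ a = 0 := by
  rw [zhom_eq_val_nsmul, smul_comm, hγ, smul_zero]

/-- `(a * b) • γ = a • (b • γ)`. -/
lemma zhom_mul (γ : T) (hγ : p • γ = 0) (a b : ZMod p) :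
    zhom p γ hγ (a * b) = zhom p (zhom p γ hγ b) (nsmul_zhom γ hγ b) a := by
  conv_lhs => rw [← ZMod.natCast_zmod_val a, ← ZMod.natCast_zmod_val b, ← Nat.cast_mul]
  rw [zhom_natCast, zhom_eq_val_nsmul _ _ a, zhom_eq_val_nsmul γ hγ b, mul_smul]

lemma zhom_congr {γ γ' : T} (h : γ = γ') (hγ : p • γ = 0) (hγ' : p • γ' = 0) (a : ZMod p) :
    zhom p γ hγ a = zhom p γ' hγ' a := by
  subst h
  rfl

lemma zhom_map {T' : Type*} [AddCommGroup T'] (f : T →+ T') (γ : T) (hγ : p • γ = 0)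
    (a : ZMod p) :
    f (zhom p γ hγ a) = zhom p (f γ) (by rw [← map_nsmul, hγ, map_zero]) a := by
  rw [zhom_eq_val_nsmul, zhom_eq_val_nsmul, map_nsmul]

lemma zhom_injective (γ : T) (hγ : p • γ = 0) (hγ0 : γ ≠ 0) :
    Function.Injective (zhom p γ hγ) := by
  rw [injective_iff_map_eq_zero]
  intro a ha
  by_contra h0
  apply hγ0
  have h1 : a⁻¹ * a = 1 := inv_mul_cancel₀ h0
  rw [← zhom_one γ hγ, ← h1, zhom_mul, zhom_eq_val_nsmul (zhom p γ hγ a) _ a⁻¹, ha, smul_zero]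

lemma exists_zhom_eq (hT : Nat.card (torsionP p T) = p) (γ : T) (hγ : p • γ = 0) (hγ0 : γ ≠ 0)
    (x : T) (hx : p • x = 0) : ∃ a : ZMod p, zhom p γ hγ a = x := by
  have hg0 : (⟨γ, hγ⟩ : torsionP p T) ≠ 0 := fun h => hγ0 (congrArg Subtype.val h)
  obtain ⟨n, hn⟩ := AddSubgroup.mem_zmultiples_iff.1
    (mem_zmultiples_of_prime_card (g' := (⟨x, hx⟩ : torsionP p T)) hT hg0)
  refine ⟨(n : ZMod p), ?_⟩
  rw [zhom_intCast]
  exact congrArg Subtype.val hn

/-- A group whose `p`-torsion has `p` elements contains an element of order `p`. -/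
lemma exists_ne_zero (hT : Nat.card (torsionP p T) = p) : ∃ t : T, t ≠ 0 ∧ p • t = 0 := by
  have hp : p.Prime := Fact.out
  have : Finite (torsionP p T) := Nat.finite_of_card_ne_zero (by rw [hT]; exact hp.ne_zero)
  have : Nontrivial (torsionP p T) :=
    Finite.one_lt_card_iff_nontrivial.1 (by rw [hT]; exact hp.one_lt)
  obtain ⟨t, ht⟩ := exists_ne (0 : torsionP p T)
  exact ⟨t.1, fun h => ht (Subtype.ext h), t.2⟩

end Zhom

section Sum

variable {p}
variable {ι : Type*} [Fintype ι] [DecidableEq ι] {X W : Type*} [AddCommGroup X] [AddCommGroup W]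
  {V : ι → Type*} [∀ q, AddCommGroup (V q)]

/-- **The abstract sum formula.** -/
theorem exists_units_sum_eq_zero (loc : ∀ q, X →+ V q) (g : X →+ W)
    (hinj : ∀ x : X, (∀ q, loc q x = 0) → x = 0)
    (e : ι → X) (hep : ∀ q, p • e q = 0) (hsupp : ∀ q q', q' ≠ q → loc q' (e q) = 0)
    (heg : ∀ q, g (e q) ≠ 0)
    (hV : ∀ q, Nat.card (torsionP p (V q)) = p) (hW : Nat.card (torsionP p W) = p)
    (γ : ∀ q, V q) (hγp : ∀ q, p • γ q = 0) (hγ0 : ∀ q, γ q ≠ 0) :
    ∃ u : ι → (ZMod p)ˣ, ∀ (w : X) (a : ι → ZMod p), g w = 0 →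
      (∀ q, loc q w = zhom p (γ q) (hγp q) (a q)) → ∑ q, (u q : ZMod p) * a q = 0 := by
  obtain ⟨t, ht0, htp⟩ := exists_ne_zero hW
  -- the coordinates of `e q`
  have hloc0 : ∀ q, loc q (e q) ≠ 0 := fun q h0 => by
    apply heg q
    rw [hinj (e q) (fun q' => ?_), map_zero]
    by_cases hq : q' = q
    · subst hq
      exact h0
    · exact hsupp q q' hq
  have hb : ∀ q, ∃ b : ZMod p, zhom p (γ q) (hγp q) b = loc q (e q) := fun q =>
    exists_zhom_eq (hV q) (γ q) (hγp q) (hγ0 q) _ (by rw [← map_nsmul, hep q, map_zero])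
  choose b hb using hb
  have hb0 : ∀ q, b q ≠ 0 := fun q h0 => hloc0 q (by rw [← hb q, h0, map_zero])
  have hc : ∀ q, ∃ c : ZMod p, zhom p t htp c = g (e q) := fun q =>
    exists_zhom_eq hW t htp ht0 _ (by rw [← map_nsmul, hep q, map_zero])
  choose c hc using hc
  have hc0 : ∀ q, c q ≠ 0 := fun q h0 => heg q (by rw [← hc q, h0, map_zero])
  refine ⟨fun q => Units.mk0 (c q * (b q)⁻¹) (mul_ne_zero (hc0 q) (inv_ne_zero (hb0 q))), ?_⟩
  intro w a hgw hw
  -- `w = ∑ (a q / b q) • e q`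
  have hw' : w = ∑ q, zhom p (e q) (hep q) (a q * (b q)⁻¹) := by
    rw [← sub_eq_zero]
    apply hinj
    intro q
    rw [map_sub, map_sum, Finset.sum_eq_single q, hw q, sub_eq_zero]
    · rw [zhom_map (loc q) (e q) (hep q), zhom_mul]
      have h1 : zhom p (loc q (e q)) (by rw [← map_nsmul, hep q, map_zero]) (b q)⁻¹ = γ q := by
        have h2 := zhom_mul (γ q) (hγp q) (b q)⁻¹ (b q)
        rw [inv_mul_cancel₀ (hb0 q), zhom_one] at h2
        rw [h2]
        exact zhom_congr (hb q).symm _ _ _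
      exact zhom_congr h1.symm _ _ _
    · intro q' _ hq'
      rw [zhom_map (loc q) (e q') (hep q')]
      have h0 : loc q (e q') = 0 := hsupp q' q (Ne.symm hq')
      rw [zhom_eq_val_nsmul, h0, smul_zero]
    · intro h
      exact absurd (Finset.mem_univ q) h
  -- apply `g`
  have hg0 : zhom p t htp (∑ q, (c q * (b q)⁻¹) * a q) = 0 := by
    rw [map_sum]
    rw [hw', map_sum] at hgw
    refine Eq.trans (Finset.sum_congr rfl fun q _ => ?_) hgw
    rw [zhom_map g (e q) (hep q)]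
    have h1 : c q * (b q)⁻¹ * a q = a q * (b q)⁻¹ * c q := by ring
    rw [h1, zhom_mul]
    exact zhom_congr (hc q) _ _ _
  exact zhom_injective t htp ht0 (hg0.trans (map_zero _).symm)

end Sum

end Fermat.Agent.S56.Base.Pairing.CyclicP
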