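/-
PROJECT T (S56), block (a1-II) = S56/Base (helper23): THE LOCAL OBJECTS AT A PRIME `q`, WITHOUT `S`.

* `Gq q`, `rq q`, `Uq q` : the prelude's local Galois group, its map to `GQ`, the pulled-back levels
  (`= Gv S q`, `rv S q`, `Uv S q` of `D/Reduce` for every `S ∋ q`, by unfolding);
* `DqZ p q = Q̄_q^× ⊗ ℤ_(p)` (`= DlocK S (Zp p) q`), `cfq`, smoothness, divisibility;
* `card_torsion` : the `p`-torsion of `H²(G_q, D_q)` has `p` elements; `gam`, `inv` : a generator
  and the resulting invariant `H²(G_q, D_q)[p] → ZMod p`;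
* `jq : Res μ_p ⟶ D_q`, injective with image the `p`-torsion, and its compatibility with the datum
  (`res_iota_f_pi`): for every `S ∋ p, q`, `π_q ∘ (E_S → J_S) ∘ ι_S = jq`.
-/
import Fermat.Agent.CFT.D.Datum.Build
import Fermat.Agent.CFT.D.DatumSupp
import Fermat.Agent.S56.Base.Pairing.CyclicP

set_option autoImplicit false

noncomputable section

namespace Fermat.Agent.S56.Base.Pairing.LocalObj

open CategoryTheory ExtCitation TensorProduct groupCohomology
open Fermat.Agent.CFT.LC Fermat.Agent.CFT.Bridge Fermat.Agent.CFT.LocalBridge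
  Fermat.Agent.CFT.D.Reduce Fermat.Agent.CFT.D.ZpModel Fermat.Agent.CFT.A7
  Fermat.Agent.CFT.A7.BaseChange Fermat.Agent.CFT.D.CoeffChange Fermat.Agent.CFT.D.DualTwist
  Fermat.Agent.CFT.D Fermat.Agent.CFT.D.DatumBuild Fermat.Agent.CFT.D.DatumInjFrob
  Fermat.Agent.S56.Base.Pairing.CyclicP

variable (p : ℕ) [Fact p.Prime] (q : Nat.Primes)

/-- The local Galois group at `q`. -/
abbrev Gq : Type := primeLocalGaloisGroup q

/-- The localisation homomorphism. -/
abbrev rq : Gq q →* GQ := primeLocalToGlobal q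

/-- The pulled-back levels. -/
abbrev Uq : Levels (Gq q) := levelsOf (rq q)

/-- The auxiliary set `{p, q}`. -/
def Sq : Finset Nat.Primes := {pPrime p, q}

lemma p_mem_Sq : pPrime p ∈ Sq p q := Finset.mem_insert_self _ _

lemma q_mem_Sq : q ∈ Sq p q := Finset.mem_insert_of_mem (Finset.mem_singleton_self q)

/-- `q` as an element of `{p, q}`. -/
abbrev qS : ↥(Sq p q) := ⟨q, q_mem_Sq p q⟩

/-- The local module `D_q = Q̄_q^× ⊗ ℤ_(p)`. -/
abbrev DqZ : Rep.{0} (Zp p) (Gq q) := DlocK (Sq p q) (Zp p) (qS p q)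

/-- The local class formation. -/
def cfq : ClassFormation (Uq q) (DqZ p q) := cfDloc p (Sq p q) (qS p q)

theorem isSmooth_DqZ : IsSmooth (Uq q) (DqZ p q) := isSmooth_Dloc p (Sq p q) (qS p q)

theorem div_DqZ (x : (DqZ p q).V) : ∃ y : (DqZ p q).V, (p : Zp p) • y = x :=
  div_Dloc p (Sq p q) (qS p q) x

/-- A level of `G_q` of index divisible by `p`. -/
theorem exists_level_dvd : ∃ U ∈ (Uq q).sets, p ∣ Nat.card (Gq q ⧸ U) := by
  haveI : Fact (q : ℕ).Prime := ⟨q.2⟩
  obtain ⟨V, hV, hdvd⟩ := Fermat.Agent.CFT.D.DatumSupp.exists_levelsLoc_dvd (q : ℕ) p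
    (Fact.out : p.Prime).pos
  obtain ⟨U, hU, hle⟩ := levelsOf_refines_levelsLoc (q : ℕ) V hV
  refine ⟨U, hU, hdvd.trans ?_⟩
  have h1 := Subgroup.index_dvd_of_le hle
  rwa [Subgroup.index_eq_card, Subgroup.index_eq_card] at h1

/-- The `p`-torsion of `H²(G_q, D_q)` has `p` elements. -/
theorem card_torsion : Nat.card (torsionP p (H (Uq q) (DqZ p q) 2)) = p := by
  obtain ⟨U, hU, hdvd⟩ := exists_level_dvd p q
  have : U.Normal := (Uq q).normal U hU
  exact (cfq p q).card_torsionP p U hU hdvd (Fact.out : p.Prime).ne_zero (card_quotient_span_p p)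

/-- A generator of the `p`-torsion of `H²(G_q, D_q)`. -/
def gam : H (Uq q) (DqZ p q) 2 := (exists_ne_zero (card_torsion p q)).choose

lemma gam_ne_zero : gam p q ≠ 0 := (exists_ne_zero (card_torsion p q)).choose_spec.1

lemma nsmul_gam : p • gam p q = 0 := (exists_ne_zero (card_torsion p q)).choose_spec.2

open Classical in
/-- The invariant `H²(G_q, D_q)[p] → ZMod p` attached to `gam` (zero outside the `p`-torsion). -/
def inv (t : H (Uq q) (DqZ p q) 2) : ZMod p :=
  if h : p • t = 0 then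
    (exists_zhom_eq (card_torsion p q) (gam p q) (nsmul_gam p q) (gam_ne_zero p q) t h).choose
  else 0

lemma zhom_inv (t : H (Uq q) (DqZ p q) 2) (h : p • t = 0) :
    zhom p (gam p q) (nsmul_gam p q) (inv p q t) = t := by
  unfold inv
  rw [dif_pos h]
  exact (exists_zhom_eq (card_torsion p q) (gam p q) (nsmul_gam p q) (gam_ne_zero p q) t
    h).choose_spec

lemma inv_eq_zero_iff (t : H (Uq q) (DqZ p q) 2) (h : p • t = 0) : inv p q t = 0 ↔ t = 0 := by
  constructor
  · intro h0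
    rw [← zhom_inv p q t h, h0, map_zero]
  · intro h0
    apply zhom_injective (gam p q) (nsmul_gam p q) (gam_ne_zero p q)
    rw [zhom_inv p q t h, h0, map_zero]

lemma inv_add (t t' : H (Uq q) (DqZ p q) 2) (h : p • t = 0) (h' : p • t' = 0) :
    inv p q (t + t') = inv p q t + inv p q t' := by
  apply zhom_injective (gam p q) (nsmul_gam p q) (gam_ne_zero p q)
  rw [map_add, zhom_inv p q t h, zhom_inv p q t' h', zhom_inv p q (t + t')
    (by rw [smul_add, h, h', add_zero])]

lemma inv_zero : inv p q 0 = 0 := (inv_eq_zero_iff p q 0 (smul_zero _)).2 rfl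


/-! ### `μ_p ⊂ D_q` -/

/-- `μ_p` as a representation over `ℤ_(p)`. -/
abbrev muZ : Rep.{0} (Zp p) GQ := resScalars (phi p) (chiRep (cycloChar p))

/-- The embedding `Res μ_p ⟶ D_q` (defined through the datum of `{p, q}`; `jq_toRes` shows that it
is `c ↦ 1 ⊗ ζ_q^c`, independent of any choice). -/
def jq : Rep.res (rq q) (muZ p) ⟶ DqZ p q :=
  (Rep.resFunctor (rq q)).map (iotaK p (Sq p q) (p_mem_Sq p q) ≫ fK p (Sq p q)) ≫
    piK p (Sq p q) (qS p q)

lemma map_iota_f_pi_toRes (S : Finset Nat.Primes) (hpS : pPrime p ∈ S) (q' : ↥S) (c : ZMod p) :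
    (piK p S q').hom ((fK p S).hom ((iotaK p S hpS).hom
      (toRes (phi p) (chiRep (cycloChar p)) c))) =
      toTensorRep (k := Zp p) (unitsQ q'.1) (j0loc p q'.1 c) := by
  rw [iotaK_apply, piK_fK_toTensorRep, loc_f_j0 p S hpS q' c]

lemma jq_toRes (c : ZMod p) :
    (jq p q).hom (toRes (phi p) (chiRep (cycloChar p)) c) =
      toTensorRep (k := Zp p) (unitsQ q) (j0loc p q c) :=
  map_iota_f_pi_toRes p (Sq p q) (p_mem_Sq p q) (qS p q) c

/-- **Compatibility with the datum**: for every `S ∋ p, q`, `π_q ∘ (E_S → J_S) ∘ ι_S = jq`. -/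
theorem res_iota_f_pi (S : Finset Nat.Primes) (hpS : pPrime p ∈ S) (q' : ↥S) :
    (Rep.resFunctor (rv S q')).map (iotaK p S hpS ≫ fK p S) ≫ piK p S q' = jq p q'.1 := by
  ext x
  obtain ⟨c, rfl⟩ := (toRes (phi p) (chiRep (cycloChar p))).surjective x
  exact (map_iota_f_pi_toRes p S hpS q' c).trans (jq_toRes p q'.1 c).symm

theorem jq_injective : Function.Injective (jq p q).hom := by
  rw [injective_iff_map_eq_zero]
  intro x hx
  have hpx : (p : Zp p) • (iotaK p (Sq p q) (p_mem_Sq p q)).hom x = 0 := by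
    rw [← map_smul, natCast_smul_resScalars (phi p) (chiRep (cycloChar p)) x, map_zero]
  have h0 := loc_inj p (Sq p q) (p_mem_Sq p q) (qS p q) _ hpx hx
  exact iotaK_injective p (Sq p q) (p_mem_Sq p q) (h0.trans (map_zero _).symm)

theorem jq_range (d : (DqZ p q).V) (hd : (p : Zp p) • d = 0) : ∃ x, (jq p q).hom x = d := by
  obtain ⟨x', hx', hd'⟩ := loc_surj p (Sq p q) (p_mem_Sq p q) (qS p q) d hd
  obtain ⟨c, rfl⟩ := iotaK_range p (Sq p q) (p_mem_Sq p q) x' hx'
  exact ⟨c, hd'⟩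

end Fermat.Agent.S56.Base.Pairing.LocalObj
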