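/-
PROJECT T (S56), block (a1-II) = S56/Base (helper23): THE DOUBLE CONNECTING-MAP FORMULA for the cup
product of level-constant cohomology.

For two short exact sequences `X`, `Y` of representations and pairings
`φ₁ : X₁ × Y₃ → D`, `φ₂ : X₂ × Y₂ → D`, `φ₃ : X₃ × Y₁ → D` compatible with the maps,

    `δ_X z ∪ w + (-1)ᵖ • (z ∪ δ_Y w) = 0`          (`z ∈ Hᵖ(X₃)`, `w ∈ H^q(Y₃)`).

Specialised to `X = (Hom(A, D) → Hom(F, D) → Hom(R, D))`, `Y = (R → F → A)` and the evaluation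
pairings (`cup_bdry_eq`): for `ψ : R ⟶ D` and `x ∈ H¹(A)`,

    `∂ψ ∪ x = - ψ_* (δ x)`.
-/
import Fermat.Agent.CFT.A3.CupLCDelta
import Fermat.Agent.CFT.A7.HomRepLC
import Fermat.Agent.CFT.LC.Elementwise

set_option autoImplicit false

universe u

noncomputable section

namespace Fermat.Agent.S56.Base.Pairing.CupDual

open CategoryTheory Fermat.Agent.CFT.LC Fermat.Agent.CFT.LC.El Fermat.Agent.CFT.A3
  Fermat.Agent.CFT.Cup Fermat.Agent.CFT.A7.HomRep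

variable {k G : Type u} [CommRing k] [Group G] {𝒰 : Levels G} [𝒰.IsFin]

section Double

variable {X Y : ShortComplex (Rep.{u} k G)} (hX : X.ShortExact) (hY : Y.ShortExact)
  (hsmX : IsSmooth 𝒰 X.X₂) (hsmY : IsSmooth 𝒰 Y.X₂) {D : Rep.{u} k G}
  (φ₁ : Pairing X.X₁ Y.X₃ D) (φ₂ : Pairing X.X₂ Y.X₂ D) (φ₃ : Pairing X.X₃ Y.X₁ D)

/-- **The double connecting-map formula**: `δ_X z ∪ w + (-1)ᵖ • (z ∪ δ_Y w) = 0`. -/
theorem lcδ_cupLC_add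
    (h12 : ∀ (a : X.X₁.V) (b : Y.X₂.V), φ₂.toLin (X.f.hom a) b = φ₁.toLin a (Y.g.hom b))
    (h23 : ∀ (a : X.X₂.V) (b : Y.X₁.V), φ₃.toLin (X.g.hom a) b = φ₂.toLin a (Y.f.hom b))
    {p q n : ℕ} (h : p + q = n) (z : H 𝒰 X.X₃ p) (w : H 𝒰 Y.X₃ q) :
    cupLC 𝒰 φ₁ (show (p + 1) + q = n + 1 by omega) (lcδ hX hsmX p (p + 1) rfl z) w +
      (-1 : k) ^ p •
        cupLC 𝒰 φ₃ (show p + (q + 1) = n + 1 by omega) z (lcδ hY hsmY q (q + 1) rfl w) = 0 := by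
  induction z using H_induction_on with
  | h ζ =>
  induction w using H_induction_on with
  | h ω =>
  obtain ⟨a, a', ha, ha'⟩ := exists_lifts_LC hX hsmX p ζ
  obtain ⟨b, b', hb, hb'⟩ := exists_lifts_LC hY hsmY q ω
  rw [lcδ_Hπ hX hsmX p ζ a ha a' ha', lcδ_Hπ hY hsmY q ω b hb b' hb', cupLC_Hπ, cupLC_Hπ,
    ← map_smul, ← map_add]
  refine (Hπ_eq_zero_iff_succ 𝒰 D n _).2 ⟨cupLCCochain 𝒰 φ₂ h a b, ?_⟩
  rw [dLC_cupLCCochain, ← ha', ← hb']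
  apply Subtype.ext
  funext g
  change cupFun φ₂ _ (fun g => X.f.hom (a'.1 g)) b.1 g +
      (-1 : k) ^ p • cupFun φ₂ _ a.1 (fun g => Y.f.hom (b'.1 g)) g =
    cupFun φ₁ _ a'.1 ω.1.1 g + (-1 : k) ^ p • cupFun φ₃ _ ζ.1.1 b'.1 g
  have hb1 : ∀ g, Y.g.hom (b.1 g) = ω.1.1 g := fun g => congrFun (congrArg Subtype.val hb) g
  have ha1 : ∀ g, X.g.hom (a.1 g) = ζ.1.1 g := fun g => congrFun (congrArg Subtype.val ha) g
  rw [cupFun_apply, cupFun_apply, cupFun_apply, cupFun_apply, h12, ← ha1, h23,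
    Rep.hom_comm_apply Y.g, hb1, Rep.hom_comm_apply Y.f]

end Double

end Fermat.Agent.S56.Base.Pairing.CupDual
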