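/-
PROJECT T (S56), block (a1-II) = S56/Base (helper23): TATE DUALITY IN DEGREE ONE FOR A RESTRICTED
RESOLUTION.

`r : G' →* G` continuous for level families `𝒰'`, `𝒰`; `A` a finite smooth representation of `G`
killed by `p`, `RA → FA → A` its canonical permutation resolution over `G`, and `cf'` a class
formation on a `G'`-module `C'` (`G' = Gal(ℚ̄_q/ℚ_q)`, `C' = Q̄_q^× ⊗ ℤ_(p)`).  This is
`S56/Base/TateDual` for the `G'`-module `Res_r A` computed with the RESTRICTED resolution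
`Res_r RA → Res_r FA → Res_r A` (the one used by the local rows `Svof` of `D/Assemble`), so that the
local pairings are compatible with the global objects on the nose:

* `thetaR`           : `H¹(G', A) →+ Hom(Hom_{G'}(RA, C'), H²(G', C'))`, `y ↦ (φ ↦ φ_* (δ y))`;
* `thetaR_injective` : left non-degeneracy;
* `exists_thetaR_eq` : realizability of the characters killing `im Hom_{G'}(FA, C')`;
* `sepR`             : right non-degeneracy (separation), from `N3Cofinal 𝒰' C' p`.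
-/
import Fermat.Agent.S56.Base.TateDual

set_option autoImplicit false
set_option linter.unusedSectionVars false

noncomputable section

namespace Fermat.Agent.S56.Base.Pairing.ResDual

open CategoryTheory groupCohomology
open Fermat.Agent.CFT.LC Fermat.Agent.CFT.LC.El Fermat.Agent.CFT.A7 Fermat.Agent.CFT.A5
  Fermat.Agent.CFT.D Fermat.Agent.CFT.D.Realize Fermat.Agent.S56.Base.TateDual

variable {k G G' : Type} [CommRing k] [Group G] [Group G']

section Objects

variable (r : G' →* G) (A : Rep.{0} k G)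

/-- The restricted resolution `Res_r RA → Res_r FA → Res_r A`. -/
abbrev SAr : ShortComplex (Rep.{0} k G') := (Resolution.SA A).map (Rep.resFunctor r)

/-- `Res_r RA`. -/
abbrev RAr : Rep.{0} k G' := Rep.res r (Resolution.RA A)

/-- `Res_r FA`. -/
abbrev FAr : Rep.{0} k G' := Rep.res r (Resolution.FA A)

/-- The inclusion `Res_r RA ⟶ Res_r FA`. -/
abbrev inclR : RAr r A ⟶ FAr r A := (Rep.resFunctor r).map (Resolution.incl A)

lemma SAr_shortExact : (SAr r A).ShortExact :=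
  (Rep.shortExact_res r).mpr (Resolution.SA_shortExact A)

lemma inclR_injective : Function.Injective (inclR r A).hom := Resolution.incl_injective A

instance free_FAr : Module.Free k (FAr r A).V :=
  inferInstanceAs (Module.Free k (Resolution.FA A).V)

instance finite_FAr [Finite A.V] : Module.Finite k (FAr r A).V :=
  inferInstanceAs (Module.Finite k (Resolution.FA A).V)

end Objects

variable [IsDomain k] [IsPrincipalIdealRing k] [CharZero k]
  {𝒰 : Levels G} [𝒰.IsFin] {𝒰' : Levels G'} [𝒰'.IsFin] {C' : Rep.{0} k G'}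

section Main

variable (hR : AddHomsLinear k) (r : G' →* G) (hr : Levels.Continuous r 𝒰' 𝒰)
  (cf : ClassFormation 𝒰' C')
  (A : Rep.{0} k G) [Finite A.V] (smA : IsSmooth 𝒰 A)

include hr smA in
lemma isSmooth_FAr : IsSmooth 𝒰' (SAr r A).X₂ :=
  IsSmooth.res_of_continuous hr (Resolution.isSmooth_FA A smA)

/-- The pairing map `H¹(G', A) →+ Hom(Hom_{G'}(RA, C'), H²(C'))`. -/
def thetaR : H 𝒰' (Rep.res r A) 1 →+ ((RAr r A ⟶ C') →+ H 𝒰' C' 2) :=
  Fermat.Agent.CFT.D.theta (SA := SAr r A) (SAr_shortExact r A) (isSmooth_FAr r hr A smA)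
    (push 𝒰' (RAr r A) C' 2)

lemma thetaR_apply (y : H 𝒰' (Rep.res r A) 1) (φ : RAr r A ⟶ C') :
    thetaR r hr A smA y φ = mapId φ 2 (lcδ (X := SAr r A) (SAr_shortExact r A)
      (isSmooth_FAr r hr A smA) 1 2 rfl y) := rfl

include hr smA in
/-- A level of `G'` acting trivially on `Res_r FA`. -/
lemma exists_level_trivialR :
    ∃ U₀ ∈ 𝒰'.sets, ∀ u ∈ U₀, ∀ b : (FAr r A).V, (FAr r A).ρ u b = b := by
  obtain ⟨U, hU, hF⟩ := exists_level_trivial A smA
  obtain ⟨U', hU', hle⟩ := hr U hU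
  exact ⟨U', hU', fun u hu b => hF (r u) (hle hu) b⟩

include hR cf hr smA in
/-- Right non-degeneracy of the push-forward pairing on `H²(G', FA)`. -/
lemma hcFR (y : H 𝒰' (FAr r A) 2) (hy : ∀ ψ : FAr r A ⟶ C', mapId ψ 2 y = 0) : y = 0 := by
  obtain ⟨U₀, hU₀, hFtriv⟩ := exists_level_trivialR r hr A smA
  exact cf.eq_zero_of_forall_mapId_eq_zero U₀ hU₀ hFtriv
    (NTGlue.ntb_of_pid hR cf U₀ (FAr r A) hFtriv) y hy

include hR cf hr smA in
/-- Right non-degeneracy of the push-forward pairing on `H²(G', RA)`. -/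
lemma hfRR (x : H 𝒰' (RAr r A) 2) (hx : ∀ φ : RAr r A ⟶ C', mapId φ 2 x = 0) : x = 0 := by
  obtain ⟨U₀, hU₀, hFtriv⟩ := exists_level_trivialR r hr A smA
  have hRtriv : ∀ u ∈ U₀, ∀ b : (RAr r A).V, (RAr r A).ρ u b = b :=
    fun u hu b => Subtype.ext (hFtriv u hu b.1)
  have hfreeR : Module.Free k (RAr r A).V := Resolution.free_RA A
  have hfinR : Module.Finite k (RAr r A).V := Resolution.finite_RA A
  exact cf.eq_zero_of_forall_mapId_eq_zero U₀ hU₀ hRtriv
    (NTGlue.ntb_of_pid hR cf U₀ (RAr r A) hRtriv) x hx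

include hR cf in
/-- **Left non-degeneracy**: `thetaR` is injective. -/
theorem thetaR_injective (y : H 𝒰' (Rep.res r A) 1) (hy : thetaR (C' := C') r hr A smA y = 0) :
    y = 0 :=
  Fermat.Agent.CFT.D.theta_injective (SA := SAr r A) (SAr_shortExact r A)
    (isSmooth_FAr r hr A smA) (push 𝒰' (RAr r A) C' 2)
    (fun x => Resolution.eq_zero_of_H1_res_FA A r hr smA x) (hfRR hR r hr cf A smA) y hy

variable (m : ℕ) (hm0 : m ≠ 0) (hmA : ∀ a : A.V, ((m : ℕ) : k) • a = 0)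
  (hn3 : N3Cofinal 𝒰' C' m)

include hR cf hr smA hm0 hmA hn3 in
/-- **Realizability**: a character of `Hom_{G'}(RA, C')` killing the image of `Hom_{G'}(FA, C')` is
`φ ↦ φ_* x` for a class `x ∈ H²(G', RA)`. -/
theorem exists_mapId_eq_of_killsR (χ : (RAr r A ⟶ C') →+ H 𝒰' C' 2)
    (hχ : ∀ ψ : FAr r A ⟶ C', χ (inclR r A ≫ ψ) = 0) :
    ∃ x : H 𝒰' (RAr r A) 2, ∀ φ : RAr r A ⟶ C', mapId φ 2 x = χ φ := by
  obtain ⟨U₀, hU₀, hFtriv⟩ := exists_level_trivialR r hr A smA
  have hRtriv : ∀ u ∈ U₀, ∀ b : (RAr r A).V, (RAr r A).ρ u b = b :=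
    fun u hu b => Subtype.ext (hFtriv u hu b.1)
  have hprojR : Module.Projective k (RAr r A).V := Resolution.projective_RA A
  have hfreeR : Module.Free k (RAr r A).V := Resolution.free_RA A
  have hfinR : Module.Finite k (RAr r A).V := Resolution.finite_RA A
  obtain ⟨U', hU'n, hU', hle, hdvd, hN3⟩ := hn3 U₀ hU₀
  have hfi : U'.FiniteIndex := cf.finiteIndex U' hU'
  have hfq : Finite (G' ⧸ U') := Subgroup.finite_quotient_of_finiteIndex
  let _ : Fintype (G' ⧸ U') := Fintype.ofFinite _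
  let _ : Fintype (layerSub U₀ U') := Fintype.ofFinite _
  exact exists_mapId_eq cf (inclR r A) (inclR_injective r A) m hm0
    (Resolution.exists_incl_eq_smul A ((m : ℕ) : k) hmA) U₀ U' hU' hle hRtriv hdvd hN3
    (NTGlue.ntc_of_pid hR cf U' hU' (RAr r A) (fun u hu b => hRtriv u (hle hu) b)) χ hχ

include hR cf hm0 hmA hn3 in
/-- **Surjectivity of `thetaR`** onto the characters killing the image of `Hom_{G'}(FA, C')`. -/
theorem exists_thetaR_eq (χ : (RAr r A ⟶ C') →+ H 𝒰' C' 2)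
    (hχ : ∀ ψ : FAr r A ⟶ C', χ (inclR r A ≫ ψ) = 0) :
    ∃ y : H 𝒰' (Rep.res r A) 1, thetaR r hr A smA y = χ := by
  obtain ⟨x, hx⟩ := exists_mapId_eq_of_killsR hR r hr cf A smA m hm0 hmA hn3 χ hχ
  have hx0 : mapId (inclR r A) 2 x = 0 := by
    apply hcFR hR r hr cf A smA
    intro ψ
    rw [mapId_mapId_apply]
    exact (hx _).trans (hχ ψ)
  obtain ⟨y, hy⟩ := exists_lcδ_eq (X := SAr r A) (SAr_shortExact r A)
    (isSmooth_FAr r hr A smA) 1 2 rfl x hx0
  refine ⟨y, ?_⟩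
  ext φ
  refine (thetaR_apply r hr A smA y φ).trans ?_
  rw [hy]
  exact hx φ

end Main

section Sep

variable (hR : AddHomsLinear k) (r : G' →* G) (hr : Levels.Continuous r 𝒰' 𝒰)
  (cf : ClassFormation 𝒰' C')
  (A : Rep.{0} k G) [Finite A.V] (smA : IsSmooth 𝒰 A)
  (p : ℕ) [Fact p.Prime] (hpA : ∀ a : A.V, ((p : ℕ) : k) • a = 0) (hn3 : N3Cofinal 𝒰' C' p)

/-- The image of `Hom_{G'}(FA, C')` in `Hom_{G'}(RA, C')`. -/
def imFR (C' : Rep.{0} k G') : AddSubgroup (RAr r A ⟶ C') :=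
  (Preadditive.leftComp C' (inclR r A)).range

lemma mem_imFR {φ : RAr r A ⟶ C'} :
    φ ∈ imFR r A C' ↔ ∃ ψ : FAr r A ⟶ C', inclR r A ≫ ψ = φ := Iff.rfl

include hpA in
/-- `Hom_{G'}(RA, C') / im Hom_{G'}(FA, C')` is killed by `p`. -/
lemma nsmul_mem_imFR (φ : RAr r A ⟶ C') : p • φ ∈ imFR r A C' := by
  obtain ⟨ψ, hψ⟩ := exists_comp_eq_smul (inclR r A) (inclR_injective r A)
    ((p : ℕ) : k) (Resolution.exists_incl_eq_smul A ((p : ℕ) : k) hpA) φ
  refine (mem_imFR r A).2 ⟨ψ, ?_⟩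
  rw [hψ, Nat.cast_smul_eq_nsmul]

/-- `Hom_{G'}(RA, C') / im Hom_{G'}(FA, C')` (`= H¹(G', Hom(A, C'))` when `H¹(Hom(FA, C')) = 0`). -/
abbrev QuoR (C' : Rep.{0} k G') : Type := (RAr r A ⟶ C') ⧸ imFR r A C'

include hpA in
lemma nsmul_quoR (q : QuoR r A C') : p • q = 0 := by
  induction q using QuotientAddGroup.induction_on with
  | H φ =>
    rw [← QuotientAddGroup.mk_nsmul]
    exact (QuotientAddGroup.eq_zero_iff _).2 (nsmul_mem_imFR r A p hpA φ)

/-- The `𝔽_p`-vector space structure of `QuoR`. -/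
@[reducible] def quoRModule : Module (ZMod p) (QuoR r A C') :=
  AddCommGroup.zmodModule (nsmul_quoR r A p hpA)

include hR cf hr smA hpA hn3 in
/-- **Right non-degeneracy (separation)**: a morphism `ψ : Res RA ⟶ C'` whose push-forward kills
`δ(H¹(G', A))` is the restriction of a morphism `Res FA ⟶ C'`. -/
theorem sepR (t : H 𝒰' C' 2) (ht0 : t ≠ 0) (htp : p • t = 0)
    (ψ : RAr r A ⟶ C') (h : ∀ y : H 𝒰' (Rep.res r A) 1, thetaR r hr A smA y ψ = 0) :
    ∃ θ' : FAr r A ⟶ C', inclR r A ≫ θ' = ψ := by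
  classical
  have hp : p.Prime := Fact.out
  by_contra hne
  have hψ : ψ ∉ imFR r A C' := fun hmem => hne ((mem_imFR r A).1 hmem)
  haveI : Module (ZMod p) (QuoR r A C') := quoRModule r A p hpA
  have hq0 : (QuotientAddGroup.mk ψ : QuoR r A C') ≠ 0 :=
    fun h0 => hψ ((QuotientAddGroup.eq_zero_iff _).1 h0)
  obtain ⟨f, hf⟩ : ∃ f : QuoR r A C' →ₗ[ZMod p] ZMod p, f (QuotientAddGroup.mk ψ) ≠ 0 := by
    by_contra hall
    push Not at hall
    exact hq0 ((Module.forall_dual_apply_eq_zero_iff (ZMod p) _).1 hall)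
  let g : ZMod p →+ H 𝒰' C' 2 := ZMod.lift p ⟨zmultiplesHom _ t, by
    change ((p : ℕ) : ℤ) • t = 0
    rw [natCast_zsmul]
    exact htp⟩
  have hg1 : g 1 = t := by
    have h1 := ZMod.lift_coe p (⟨zmultiplesHom _ t, by
      change ((p : ℕ) : ℤ) • t = 0
      rw [natCast_zsmul]
      exact htp⟩ : {f : ℤ →+ H 𝒰' C' 2 // f p = 0}) 1
    simpa using h1
  have hg_ne : ∀ a : ZMod p, a ≠ 0 → g a ≠ 0 := by
    intro a ha hga
    apply ht0
    have h1 : a⁻¹ * a = 1 := inv_mul_cancel₀ ha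
    have h2 : a⁻¹ * a = (a⁻¹).val • a := by rw [nsmul_eq_mul, ZMod.natCast_zmod_val]
    rw [← hg1, ← h1, h2, map_nsmul, hga, smul_zero]
  let χ : (RAr r A ⟶ C') →+ H 𝒰' C' 2 :=
    g.comp (f.toAddMonoidHom.comp (QuotientAddGroup.mk' (imFR r A C')))
  have hχ : ∀ ψ' : FAr r A ⟶ C', χ (inclR r A ≫ ψ') = 0 := by
    intro ψ'
    change g (f (QuotientAddGroup.mk (inclR r A ≫ ψ'))) = 0
    rw [(QuotientAddGroup.eq_zero_iff _).2 ((mem_imFR r A).2 ⟨ψ', rfl⟩), map_zero, map_zero]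
  obtain ⟨y, hy⟩ := exists_thetaR_eq hR r hr cf A smA p hp.ne_zero hpA hn3 χ hχ
  have h0 := h y
  rw [hy] at h0
  exact hg_ne _ hf h0

end Sep

end Fermat.Agent.S56.Base.Pairing.ResDual
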