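/-
PROJECT T (S56), block (a1-II) = S56/Base (helper23): LOCAL TATE DUALITY IN DEGREE ONE AS A CUP
PRODUCT.

Frame of `Pairing/ResDual`: `r : G' →* G` continuous, `A` a finite smooth representation of `G`
killed by `p`, `cf'` a class formation on the `p`-divisible smooth `G'`-module `C'`.

* `Ad r A C' = Hom(Res_r A, C')` and the column `colR = (Hom(A,C') → Hom(FA,C') → Hom(RA,C'))`;
* `bdry : Hom_{G'}(RA, C') →+ H¹(G', Ad)` (connecting map), `bdry_surjective`, `bdry_eq_zero_iff`;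
* `pairH : H¹(G', Ad) →+ H¹(G', A) →+ H²(G', C')`, the CUP PRODUCT with the evaluation pairing;
* `pairH_bdry` : `pairH (bdry ψ) x = - ψ_* (δ x)`  (`= - thetaR x ψ`);
* `pairH_left_nd`, `pairH_right_nd` : perfectness.
-/
import Fermat.Agent.S56.Base.Pairing.ResDual
import Fermat.Agent.S56.Base.Pairing.CupDual

set_option autoImplicit false
set_option linter.unusedSectionVars false

noncomputable section

namespace Fermat.Agent.S56.Base.Pairing.LocDual

open CategoryTheory groupCohomology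
open Fermat.Agent.CFT.LC Fermat.Agent.CFT.LC.El Fermat.Agent.CFT.A7 Fermat.Agent.CFT.A5
  Fermat.Agent.CFT.A3 Fermat.Agent.CFT.Cup Fermat.Agent.CFT.A7.HomRep
  Fermat.Agent.CFT.D Fermat.Agent.CFT.D.Realize Fermat.Agent.S56.Base.TateDual
  Fermat.Agent.S56.Base.Pairing.ResDual Fermat.Agent.S56.Base.Pairing.CupDual

variable {k G G' : Type} [CommRing k] [Group G] [Group G']
  [IsDomain k] [IsPrincipalIdealRing k] [CharZero k]
  {𝒰 : Levels G} [𝒰.IsFin] {𝒰' : Levels G'} [𝒰'.IsFin]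

section Defs

variable (r : G' →* G) (A : Rep.{0} k G) (C' : Rep.{0} k G')

/-- The local dual `Hom(Res_r A, C')`. -/
abbrev Ad : Rep.{0} k G' := homRep (Rep.res r A) C'

/-- The local column `Hom(A, C') → Hom(FA, C') → Hom(RA, C')`. -/
abbrev colR : ShortComplex (Rep.{0} k G') := homSC (SAr r A) C'

/-- **The local Tate pairing** `H¹(G', Hom(A, C')) × H¹(G', A) → H²(G', C')`: the cup product with
the evaluation pairing. -/
def pairH : H 𝒰' (Ad r A C') 1 →+ H 𝒰' (Rep.res r A) 1 →+ H 𝒰' C' 2 :=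
  AddMonoidHom.mk' (fun y => (cupLC 𝒰' (Pairing.eval (Rep.res r A) C')
      (show 1 + 1 = 2 from rfl) y).toAddMonoidHom) (fun y y' => by
    ext x
    change cupLC 𝒰' _ _ (y + y') x = cupLC 𝒰' _ _ y x + cupLC 𝒰' _ _ y' x
    rw [map_add, LinearMap.add_apply])

lemma pairH_apply (y : H 𝒰' (Ad r A C') 1) (x : H 𝒰' (Rep.res r A) 1) :
    pairH r A C' y x = cupLC 𝒰' (Pairing.eval (Rep.res r A) C') (show 1 + 1 = 2 from rfl) y x :=
  rfl

end Defs

section Column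

variable (r : G' →* G) (hr : Levels.Continuous r 𝒰' 𝒰)
  (A : Rep.{0} k G) [Finite A.V] (smA : IsSmooth 𝒰 A) (C' : Rep.{0} k G')
  (smC : IsSmooth 𝒰' C')
  (p : ℕ) (hpA : ∀ a : A.V, ((p : ℕ) : k) • a = 0)
  (hdiv : ∀ x : C'.V, ∃ y : C'.V, ((p : ℕ) : k) • y = x)

include hpA hdiv in
lemma colR_shortExact : (colR r A C').ShortExact :=
  haveI : Module.Projective k (Resolution.SA A).X₁.V := Resolution.projective_RA A
  LocalRow.Sv_shortExact r C' (Resolution.SA_shortExact A) ((p : ℕ) : k) hpA hdiv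

include hr smA smC in
lemma isSmooth_colR₂ : IsSmooth 𝒰' (colR r A C').X₂ :=
  haveI : Module.Finite k (SAr r A).X₂.V := finite_FAr r A
  isSmooth_homRep (isSmooth_FAr r hr A smA) smC

/-- The connecting map `Hom_{G'}(RA, C') →+ H¹(G', Hom(A, C'))`. -/
def bdry : (RAr r A ⟶ C') →+ H 𝒰' (Ad r A C') 1 :=
  (lcδ (X := colR r A C') (colR_shortExact r A C' p hpA hdiv)
      (isSmooth_colR₂ r hr A smA C' smC) 0 1 rfl).hom.toAddMonoidHom.comp
    (h0HomEquiv 𝒰' (RAr r A) C').symm.toAddEquiv.toAddMonoidHom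

lemma bdry_apply (ψ : RAr r A ⟶ C') :
    bdry r hr A smA C' smC p hpA hdiv ψ =
      lcδ (X := colR r A C') (colR_shortExact r A C' p hpA hdiv)
        (isSmooth_colR₂ r hr A smA C' smC) 0 1 rfl ((h0HomEquiv 𝒰' (RAr r A) C').symm ψ) := rfl

/-- `bdry ψ = 0` iff `ψ` extends to `FA`. -/
theorem bdry_eq_zero_iff (ψ : RAr r A ⟶ C') :
    bdry r hr A smA C' smC p hpA hdiv ψ = 0 ↔ ψ ∈ imFR r A C' := by
  rw [bdry_apply]
  constructor
  · intro h
    obtain ⟨y, hy⟩ := exists_mapId_g_eq (X := colR r A C') (colR_shortExact r A C' p hpA hdiv)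
      (isSmooth_colR₂ r hr A smA C' smC) 0 1 rfl _ h
    refine (mem_imFR r A).2 ⟨h0HomEquiv 𝒰' (FAr r A) C' y, ?_⟩
    have h1 := h0HomEquiv_homRes 𝒰' (X := C') (inclR r A) y
    rw [← h1]
    have h2 : mapId (𝒰 := 𝒰') (homRes (inclR r A) C') 0 y =
        (h0HomEquiv 𝒰' (RAr r A) C').symm ψ := hy
    rw [h2, LinearEquiv.apply_symm_apply]
  · intro h
    obtain ⟨θ', rfl⟩ := (mem_imFR r A).1 h
    have h1 := h0HomEquiv_homRes 𝒰' (X := C') (inclR r A)
      ((h0HomEquiv 𝒰' (FAr r A) C').symm θ')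
    rw [LinearEquiv.apply_symm_apply] at h1
    rw [← h1, LinearEquiv.symm_apply_apply]
    exact lcδ_mapId_g_apply (X := colR r A C') (colR_shortExact r A C' p hpA hdiv)
      (isSmooth_colR₂ r hr A smA C' smC) 0 1 rfl _

/-- `bdry` is onto as soon as `H¹(G', Hom(FA, C')) = 0`. -/
theorem bdry_surjective (h3 : ∀ x : H 𝒰' (homRep (FAr r A) C') 1, x = 0) :
    Function.Surjective (bdry r hr A smA C' smC p hpA hdiv) := by
  intro y
  obtain ⟨z, hz⟩ := exists_lcδ_eq (X := colR r A C') (colR_shortExact r A C' p hpA hdiv)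
    (isSmooth_colR₂ r hr A smA C' smC) 0 1 rfl y (h3 _)
  refine ⟨h0HomEquiv 𝒰' (RAr r A) C' z, ?_⟩
  have e : (h0HomEquiv 𝒰' (RAr r A) C').symm (h0HomEquiv 𝒰' (RAr r A) C' z) = z :=
    LinearEquiv.symm_apply_apply _ z
  rw [bdry_apply, e]
  exact hz

/-- **The cup product with a boundary**: `∂ψ ∪ x = - ψ_* (δ x)`. -/
theorem pairH_bdry (ψ : RAr r A ⟶ C') (x : H 𝒰' (Rep.res r A) 1) :
    pairH r A C' (bdry r hr A smA C' smC p hpA hdiv ψ) x = - thetaR r hr A smA x ψ := by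
  have key := lcδ_cupLC_add (X := colR r A C') (Y := SAr r A)
    (colR_shortExact r A C' p hpA hdiv) (SAr_shortExact r A)
    (isSmooth_colR₂ r hr A smA C' smC) (isSmooth_FAr r hr A smA)
    (Pairing.eval (Rep.res r A) C') (Pairing.eval (FAr r A) C') (Pairing.eval (RAr r A) C')
    (fun _ _ => rfl) (fun _ _ => rfl) (show 0 + 1 = 1 from rfl)
    ((h0HomEquiv 𝒰' (RAr r A) C').symm ψ) x
  rw [pow_zero, one_smul] at key
  rw [pairH_apply, bdry_apply, thetaR_apply]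
  refine (eq_neg_of_add_eq_zero_left key).trans (congrArg Neg.neg ?_)
  refine (cupLC_eval_eq_mapId 𝒰' (show 0 + 2 = 2 from rfl) _ _).trans ?_
  have e : h0HomEquiv 𝒰' (RAr r A) C' ((h0HomEquiv 𝒰' (RAr r A) C').symm ψ) = ψ :=
    LinearEquiv.apply_symm_apply _ ψ
  change mapId (h0HomEquiv 𝒰' (RAr r A) C' ((h0HomEquiv 𝒰' (RAr r A) C').symm ψ)) 2 _ = _
  rw [e]

end Column

section ND

variable (hR : AddHomsLinear k) (r : G' →* G) (hr : Levels.Continuous r 𝒰' 𝒰)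
  (A : Rep.{0} k G) [Finite A.V] (smA : IsSmooth 𝒰 A) {C' : Rep.{0} k G'}
  (cf : ClassFormation 𝒰' C') (smC : IsSmooth 𝒰' C')
  (p : ℕ) [Fact p.Prime] (hpA : ∀ a : A.V, ((p : ℕ) : k) • a = 0)
  (hdiv : ∀ x : C'.V, ∃ y : C'.V, ((p : ℕ) : k) • y = x)

include hr smA smC cf in
/-- `(h3)`: `H¹(G', Hom(FA, C')) = 0`. -/
lemma h3 (x : H 𝒰' (homRep (FAr r A) C') 1) : x = 0 :=
  Fermat.Agent.CFT.D.Main.eq_zero_of_isZero
    (Resolution.isZero_H_homRep_res_FA A r hr smA C' smC 1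
      (fun V hV => cf.isZero_H1_restrict V hV)) x

include hR cf hr smA smC hpA hdiv in
/-- **Left non-degeneracy** (in the variable `x ∈ H¹(G', A)`). -/
theorem pairH_left_nd (x : H 𝒰' (Rep.res r A) 1)
    (h : ∀ y : H 𝒰' (Ad r A C') 1, pairH r A C' y x = 0) : x = 0 := by
  apply thetaR_injective hR r hr cf A smA x
  ext ψ
  have h1 := h (bdry r hr A smA C' smC p hpA hdiv ψ)
  rw [pairH_bdry, neg_eq_zero] at h1
  exact h1

include hR cf hr smA smC hpA hdiv in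
/-- **Right non-degeneracy** (in the variable `y ∈ H¹(G', Hom(A, C'))`). -/
theorem pairH_right_nd (hn3 : N3Cofinal 𝒰' C' p) (t : H 𝒰' C' 2) (ht0 : t ≠ 0) (htp : p • t = 0)
    (y : H 𝒰' (Ad r A C') 1) (h : ∀ x : H 𝒰' (Rep.res r A) 1, pairH r A C' y x = 0) : y = 0 := by
  obtain ⟨ψ, rfl⟩ := bdry_surjective r hr A smA C' smC p hpA hdiv (h3 r hr A smA cf smC) y
  rw [bdry_eq_zero_iff]
  refine (mem_imFR r A).2 (sepR hR r hr cf A smA p hpA hn3 t ht0 htp ψ (fun x => ?_))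
  have h1 := h x
  rw [pairH_bdry, neg_eq_zero] at h1
  exact h1

end ND

end Fermat.Agent.S56.Base.Pairing.LocDual
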