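/-
PROJECT T (S56), block (a1-II) = S56/Base (helper23): GLOBAL RECIPROCITY (P1) FOR THE LOCAL TATE
PAIRINGS, from the arithmetic datum of `D/Main`.

`dat : Datum S φ` (`E → J → C`, `π_q : J → D_q`), `A` a finite smooth `G_S`-module killed by `p`.
For `y ∈ H¹(G_S, Hom(A, E))`, `x ∈ H¹(G_S, A)` the class `w = f_*(y ∪ x) ∈ H²(G_S, J)` dies in
`H²(G_S, C)` and localises to the local Tate pairings `⟨loc_q y, res_q x⟩_q` (`map_cup_eq_pairH`).
With one class `e_q ∈ H²(G_S, J)` of order `p` supported at `q` and nonzero in `H²(G_S, C)` for each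
`q ∈ S` (`SuppClasses`) and cyclic local `p`-torsion, the abstract sum formula gives

    `∑_q u_q · inv_q ⟨loc_q y, res_q x⟩_q = 0`           (`recip`)

with units `u_q` independent of `A`, `x`, `y`.
-/
import Fermat.Agent.S56.Base.Pairing.LocDual
import Fermat.Agent.S56.Base.Pairing.CyclicP

set_option autoImplicit false
set_option linter.unusedSectionVars false

noncomputable section

namespace Fermat.Agent.S56.Base.Pairing.Recip

open CategoryTheory groupCohomology
open Fermat.Agent.CFT.LC Fermat.Agent.CFT.LC.El Fermat.Agent.CFT.Bridge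
  Fermat.Agent.CFT.A7 Fermat.Agent.CFT.A5 Fermat.Agent.CFT.A3 Fermat.Agent.CFT.Cup
  Fermat.Agent.CFT.A7.HomRep Fermat.Agent.CFT.D Fermat.Agent.CFT.D.Reduce
  Fermat.Agent.CFT.D.Main Fermat.Agent.S56.Base.Pairing.LocDual
  Fermat.Agent.S56.Base.Pairing.CyclicP

variable {p : ℕ} [Fact p.Prime] {S : Finset Nat.Primes} {k : Type} [CommRing k] [IsDomain k]
  [IsPrincipalIdealRing k] [CharZero k] {φ : k →+* ZMod p} (dat : Datum S φ)

/-- One class of order `p` per prime of `S`, supported at that prime, with nonzero image in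
`H²(G_S, C)`. -/
def SuppClasses : Prop :=
  ∀ q : ↥S, ∃ e : H (levelsS S) dat.SES.X₂ 2, p • e = 0 ∧
    (∀ q' : ↥S, q' ≠ q → map (A := dat.SES.X₂) (B := dat.Dloc q') (hrv S q') (dat.π q') 2 e = 0) ∧
    mapId dat.SES.g 2 e ≠ 0

section Cup

variable (A : Rep.{0} k GQ)

/-- The global class `f_*(y ∪ x) ∈ H²(G_S, J)`. -/
def cupJ (y : H (levelsS S) (homRep A dat.SES.X₁) 1) (x : H (levelsS S) A 1) :
    H (levelsS S) dat.SES.X₂ 2 :=
  mapId dat.SES.f 2 (cupLC (levelsS S) (Pairing.eval A dat.SES.X₁) (show 1 + 1 = 2 from rfl) y x)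

lemma mapId_g_cupJ (y : H (levelsS S) (homRep A dat.SES.X₁) 1) (x : H (levelsS S) A 1) :
    mapId dat.SES.g 2 (cupJ dat A y x) = 0 := by
  unfold cupJ
  rw [mapId_mapId_apply, dat.SES.zero, mapId_zero_hom]
  rfl

/-- The localisation of `f_*(y ∪ x)` at `q` is the local Tate pairing of the localisations. -/
theorem map_cupJ (q : ↥S) (y : H (levelsS S) (homRep A dat.SES.X₁) 1) (x : H (levelsS S) A 1) :
    map (A := dat.SES.X₂) (B := dat.Dloc q) (hrv S q) (dat.π q) 2 (cupJ dat A y x) =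
      pairH (rv S q) A (dat.Dloc q)
        (map (A := homRep A dat.SES.X₁) (B := Ad (rv S q) A (dat.Dloc q)) (hrv S q)
          (locHom (rv S) q A dat.SES.X₁ ((Rep.resFunctor (rv S q)).map dat.SES.f ≫ dat.π q)) 1 y)
        (map (A := A) (B := Rep.res (rv S q) A) (hrv S q) (𝟙 _) 1 x) := by
  unfold cupJ
  rw [mapId_map_apply, pairH_apply]
  exact (cupLC_map (hrv S q) (Pairing.eval A dat.SES.X₁)
    (Pairing.eval (Rep.res (rv S q) A) (dat.Dloc q))
    (locHom (rv S) q A dat.SES.X₁ ((Rep.resFunctor (rv S q)).map dat.SES.f ≫ dat.π q)) (𝟙 _)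
    ((Rep.resFunctor (rv S q)).map dat.SES.f ≫ dat.π q) (fun _ _ => rfl)
    (show 1 + 1 = 2 from rfl) y x).symm

end Cup

section Sum

variable (hE : SuppClasses dat)
  (hTq : ∀ q : ↥S, Nat.card (torsionP p (H (Uv S q) (dat.Dloc q) 2)) = p)
  (γ : ∀ q : ↥S, H (Uv S q) (dat.Dloc q) 2) (hγp : ∀ q, p • γ q = 0) (hγ0 : ∀ q, γ q ≠ 0)

include hE hTq hγ0 in
/-- **Reciprocity (P1)**: units `u_q` such that the weighted sum of the local invariants of the
local Tate pairings of global classes vanishes. -/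
theorem recip : ∃ u : ↥S → (ZMod p)ˣ, ∀ (A : Rep.{0} k GQ)
    (y : H (levelsS S) (homRep A dat.SES.X₁) 1) (x : H (levelsS S) A 1) (a : ↥S → ZMod p),
    (∀ q : ↥S, pairH (rv S q) A (dat.Dloc q)
        (map (A := homRep A dat.SES.X₁) (B := Ad (rv S q) A (dat.Dloc q)) (hrv S q)
          (locHom (rv S) q A dat.SES.X₁ ((Rep.resFunctor (rv S q)).map dat.SES.f ≫ dat.π q)) 1 y)
        (map (A := A) (B := Rep.res (rv S q) A) (hrv S q) (𝟙 _) 1 x) =
      zhom p (γ q) (hγp q) (a q)) →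
    ∑ q, (u q : ZMod p) * a q = 0 := by
  classical
  choose e hep hsupp heg using hE
  obtain ⟨u, hu⟩ := exists_units_sum_eq_zero (p := p) (ι := ↥S)
    (X := H (levelsS S) dat.SES.X₂ 2) (W := H (levelsS S) dat.SES.X₃ 2)
    (V := fun q : ↥S => H (Uv S q) (dat.Dloc q) 2)
    (fun q => (map (A := dat.SES.X₂) (B := dat.Dloc q) (hrv S q) (dat.π q) 2).hom.toAddMonoidHom)
    (mapId dat.SES.g 2).hom.toAddMonoidHom
    (fun x hx => dat.inj x hx) e hep (fun q q' hq' => hsupp q q' hq') heg hTq dat.hT γ hγp hγ0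
  refine ⟨u, fun A y x a h => hu (cupJ dat A y x) a (mapId_g_cupJ dat A y x) (fun q => ?_)⟩
  exact (map_cupJ dat A q y x).trans (h q)

end Sum

end Fermat.Agent.S56.Base.Pairing.Recip
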