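/-
PROJECT T (S56), block (a1-II) = S56/Base (helper23): THE LOCAL PAIRINGS ON CLASSES, FOR A GLOBAL
DUAL PAIR.

`A`, `A'` finite `GQ`-modules over `ℤ_(p)` killed by `p`, `τ : A' ≅ Hom(A, μ_p)` (Tate twist).  For
every prime `q` (no `S`):

* `tw τ q : Res_q A' ⟶ Hom(Res_q A, D_q)`, an isomorphism (`isIso_tw`);
* `PH τ q : H¹(G_q, A) →+ H¹(G_q, A') →+ ZMod p`, `(x, y) ↦ inv_q (tw y ∪ x)`;
* `PH_left_nd`, `PH_right_nd` : perfectness (from `LocDual`, given `N3Cofinal` at `q`);
* `recip_class` : reciprocity (P1) for `S ∋ p`, with units independent of `A`, `A'`, `τ`, `x`, `y`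
  (from `Recip.recip` for `theDatum`, given one supported class per prime).
-/
import Fermat.Agent.S56.Base.Pairing.LocalObj
import Fermat.Agent.S56.Base.Pairing.Recip

set_option autoImplicit false
set_option linter.unusedSectionVars false

noncomputable section

namespace Fermat.Agent.S56.Base.Pairing.ClassPair

open CategoryTheory ExtCitation groupCohomology
open Fermat.Agent.CFT.LC Fermat.Agent.CFT.LC.El Fermat.Agent.CFT.Bridge
  Fermat.Agent.CFT.D.Reduce Fermat.Agent.CFT.D.ZpModel Fermat.Agent.CFT.A7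
  Fermat.Agent.CFT.A7.HomRep Fermat.Agent.CFT.D.CoeffChange Fermat.Agent.CFT.D.DualTwist
  Fermat.Agent.CFT.D Fermat.Agent.CFT.D.Main Fermat.Agent.CFT.D.DatumBuild
  Fermat.Agent.CFT.D.DatumInjFrob
  Fermat.Agent.S56.Base.TateDual Fermat.Agent.S56.Base.Pairing.CyclicP
  Fermat.Agent.S56.Base.Pairing.LocalObj Fermat.Agent.S56.Base.Pairing.LocDual
  Fermat.Agent.S56.Base.Pairing.Recip

variable {p : ℕ} [Fact p.Prime]

/-- `Res_q` is continuous for all levels. -/
lemma hrq (q : Nat.Primes) : Levels.Continuous (rq q) (Uq q) levelsAll :=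
  fun _ hU => ⟨_, Levels.mem_comap_sets hU, le_rfl⟩

section Tw

variable {A A' : Rep.{0} (Zp p) GQ} (τ : A' ≅ homRep A (muZ p)) (q : Nat.Primes)

/-- The local twist map `Res_q A' ⟶ Hom(Res_q A, D_q)`. -/
def tw : Rep.res (rq q) A' ⟶ Ad (rq q) A (DqZ p q) :=
  (Rep.resFunctor (rq q)).map τ.hom ≫ locHom (fun _ : Unit => rq q) () A (muZ p) (jq p q)

lemma toLin_tw (x : A'.V) (a : A.V) :
    toLin ((tw τ q).hom x) a = (jq p q).hom (toLin (τ.hom.hom x) a) := rfl

variable (hpA : ∀ a : A.V, ((p : ℕ) : Zp p) • a = 0)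

include hpA in
theorem isIso_tw : IsIso (tw τ q) := by
  have h1 : IsIso ((Rep.resFunctor (rq q)).map τ.hom) :=
    ((Rep.resFunctor (rq q)).mapIso τ).isIso_hom
  have h2 : IsIso (locHom (fun _ : Unit => rq q) () A (muZ p) (jq p q)) :=
    isIso_locHom (fun _ : Unit => rq q) () A (muZ p) (jq p q) p
      (fun b => by rw [← Nat.cast_smul_eq_nsmul (Zp p)]; exact hpA b) (jq_injective p q)
      (fun y hy => jq_range p q y (by rw [Nat.cast_smul_eq_nsmul (Zp p)]; exact hy))
  unfold tw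
  infer_instance

end Tw

section PH

/-- Classes with coefficients in a module killed by `p` are killed by `p`. -/
lemma nsmul_H_eq_zero {G : Type} [Group G] (𝒰 : Levels G) (B : Rep.{0} (Zp p) G)
    (hB : ∀ b : B.V, ((p : ℕ) : Zp p) • b = 0) (n : ℕ) (x : H 𝒰 B n) : p • x = 0 := by
  rw [← Nat.cast_smul_eq_nsmul (Zp p)]
  induction x using H_induction_on with
  | h z =>
    rw [← map_smul]
    have h0 : ((p : ℕ) : Zp p) • z = 0 := by
      apply Subtype.ext
      apply Subtype.ext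
      funext g
      exact hB _
    rw [h0, map_zero]

variable {A A' : Rep.{0} (Zp p) GQ} (τ : A' ≅ homRep A (muZ p)) (q : Nat.Primes)
  (hpA : ∀ a : A.V, ((p : ℕ) : Zp p) • a = 0)


include hpA in
/-- The values of the cup product are `p`-torsion. -/
lemma nsmul_pairH (y' : H (Uq q) (Ad (rq q) A (DqZ p q)) 1) (x : H (Uq q) (Rep.res (rq q) A) 1) :
    p • pairH (rq q) A (DqZ p q) y' x = 0 := by
  rw [← map_nsmul, nsmul_H_eq_zero (Uq q) (Rep.res (rq q) A) hpA 1 x, map_zero]

/-- **The local pairing on classes** `H¹(G_q, A) × H¹(G_q, A') → ZMod p`. -/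
def PH : H (Uq q) (Rep.res (rq q) A) 1 →+ H (Uq q) (Rep.res (rq q) A') 1 →+ ZMod p :=
  AddMonoidHom.mk' (fun x => AddMonoidHom.mk'
      (fun y => inv p q (pairH (rq q) A (DqZ p q) (mapId (𝒰 := Uq q) (tw τ q) 1 y) x))
      (fun y y' => by
        rw [map_add, map_add, AddMonoidHom.add_apply]
        exact inv_add p q _ _ (nsmul_pairH q hpA _ x) (nsmul_pairH q hpA _ x)))
    (fun x x' => by
      ext y
      change inv p q (pairH (rq q) A (DqZ p q) _ (x + x')) =
        inv p q (pairH (rq q) A (DqZ p q) _ x) + inv p q (pairH (rq q) A (DqZ p q) _ x')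
      rw [map_add]
      exact inv_add p q _ _ (nsmul_pairH q hpA _ x) (nsmul_pairH q hpA _ x'))

lemma PH_apply (x : H (Uq q) (Rep.res (rq q) A) 1) (y : H (Uq q) (Rep.res (rq q) A') 1) :
    PH τ q hpA x y = inv p q (pairH (rq q) A (DqZ p q) (mapId (𝒰 := Uq q) (tw τ q) 1 y) x) := rfl

lemma zhom_PH (x : H (Uq q) (Rep.res (rq q) A) 1) (y : H (Uq q) (Rep.res (rq q) A') 1) :
    zhom p (gam p q) (nsmul_gam p q) (PH τ q hpA x y) =
      pairH (rq q) A (DqZ p q) (mapId (𝒰 := Uq q) (tw τ q) 1 y) x :=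
  zhom_inv p q _ (nsmul_pairH q hpA _ x)

variable [Finite A.V] (smA : IsSmooth levelsAll A) (hn3 : N3Cofinal (Uq q) (DqZ p q) p)

include smA in
/-- **Left non-degeneracy.** -/
theorem PH_left_nd (x : H (Uq q) (Rep.res (rq q) A) 1)
    (h : ∀ y : H (Uq q) (Rep.res (rq q) A') 1, PH τ q hpA x y = 0) : x = 0 := by
  have hiso : IsIso (tw τ q) := isIso_tw τ q hpA
  refine pairH_left_nd (addHomsLinear p) (rq q) (hrq q) A smA (cfq p q) (isSmooth_DqZ p q) p hpA
    (div_DqZ p q) x (fun y' => ?_)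
  have h1 := h (mapId (𝒰 := Uq q) (CategoryTheory.inv (tw τ q)) 1 y')
  rw [PH_apply, inv_eq_zero_iff p q _ (nsmul_pairH q hpA _ x), mapId_mapId_apply,
    IsIso.inv_hom_id, mapId_one_apply] at h1
  exact h1

include smA hn3 in
/-- **Right non-degeneracy.** -/
theorem PH_right_nd (y : H (Uq q) (Rep.res (rq q) A') 1)
    (h : ∀ x : H (Uq q) (Rep.res (rq q) A) 1, PH τ q hpA x y = 0) : y = 0 := by
  have hiso : IsIso (tw τ q) := isIso_tw τ q hpA
  apply mapId_injective_of_isIso (tw τ q) 1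
  rw [map_zero]
  refine pairH_right_nd (addHomsLinear p) (rq q) (hrq q) A smA (cfq p q) (isSmooth_DqZ p q) p hpA
    (div_DqZ p q) hn3 (gam p q) (gam_ne_zero p q) (nsmul_gam p q) _ (fun x => ?_)
  have h1 := h x
  rwa [PH_apply, inv_eq_zero_iff p q _ (nsmul_pairH q hpA _ x)] at h1

end PH


section Recip

variable (S : Finset Nat.Primes) (hpS : pPrime p ∈ S) (g : GlobalInputs p S)

/-- The local twist map is the localisation of the global one. -/
lemma res_comp_locHom_eq_tw {A A' : Rep.{0} (Zp p) GQ} (τ : A' ≅ homRep A (muZ p)) (q : ↥S) :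
    (Rep.resFunctor (rv S q)).map (τ.hom ≫ homMap A (theDatum hpS g).ι) ≫
        locHom (rv S) q A (theDatum hpS g).SES.X₁
          ((Rep.resFunctor (rv S q)).map (theDatum hpS g).SES.f ≫ (theDatum hpS g).π q) =
      tw τ q.1 := by
  ext x a
  have h1 := res_iota_f_pi p S hpS q
  have h2 := congrArg (fun f => f.hom (toLin (τ.hom.hom x) a)) h1
  refine Eq.trans ?_ (h2.trans (toLin_tw τ q.1 x a).symm)
  have hπ : (theDatum hpS g).π q = piK p S q := piJK_eq_piK p S q
  change ((theDatum hpS g).π q).hom ((fK p S).hom ((iotaK p S hpS).hom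
    (toLin (τ.hom.hom x) a))) = (piK p S q).hom ((fK p S).hom ((iotaK p S hpS).hom
    (toLin (τ.hom.hom x) a)))
  rw [hπ]
  rfl

variable (hSC : SuppClasses (theDatum hpS g))

include hSC in
/-- **Reciprocity (P1) on classes**: units `u_q` (`q ∈ S`), independent of the modules and of the
classes, such that the weighted sum of the local pairings of global classes vanishes. -/
theorem recip_class : ∃ u : ↥S → (ZMod p)ˣ, ∀ (A A' : Rep.{0} (Zp p) GQ)
    (τ : A' ≅ homRep A (muZ p)) (hpA : ∀ a : A.V, ((p : ℕ) : Zp p) • a = 0)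
    (x : H (levelsS S) A 1) (y : H (levelsS S) A' 1),
    ∑ q : ↥S, (u q : ZMod p) *
      PH τ q.1 hpA (map (A := A) (B := Rep.res (rv S q) A) (hrv S q) (𝟙 _) 1 x)
        (map (A := A') (B := Rep.res (rv S q) A') (hrv S q) (𝟙 _) 1 y) = 0 := by
  obtain ⟨u, hu⟩ := recip (theDatum hpS g) hSC (fun q => card_torsion p q.1)
    (fun q => gam p q.1) (fun q => nsmul_gam p q.1) (fun q => gam_ne_zero p q.1)
  refine ⟨u, fun A A' τ hpA x y => hu A
    (mapId (𝒰 := levelsS S) (τ.hom ≫ homMap A (theDatum hpS g).ι) 1 y) x _ (fun q => ?_)⟩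
  refine Eq.trans ?_ (zhom_PH τ q.1 hpA _ _).symm
  have e : map (A := homRep A (theDatum hpS g).SES.X₁)
        (B := Ad (rv S q) A ((theDatum hpS g).Dloc q)) (hrv S q)
        (locHom (rv S) q A (theDatum hpS g).SES.X₁
          ((Rep.resFunctor (rv S q)).map (theDatum hpS g).SES.f ≫ (theDatum hpS g).π q)) 1
        (mapId (𝒰 := levelsS S) (τ.hom ≫ homMap A (theDatum hpS g).ι) 1 y) =
      mapId (𝒰 := Uq q.1) (tw τ q.1) 1
        (map (A := A') (B := Rep.res (rv S q) A') (hrv S q) (𝟙 _) 1 y) := by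
    rw [mapId_map_apply, res_comp_locHom_eq_tw S hpS g τ q, map_mapId_apply, Category.id_comp]
    rfl
  exact congrArg (fun t => pairH (rq q.1) A (DqZ p q.1) t
    (map (A := A) (B := Rep.res (rv S q) A) (hrv S q) (𝟙 _) 1 x)) e

end Recip

end Fermat.Agent.S56.Base.Pairing.ClassPair
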