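/-
PROJECT T (S56), block (a1-II) = S56/Base (helper23): NATURALITY OF THE LOCAL PAIRINGS ON CLASSES.

* `Phi τ q`  : the pairing `Res_q A' × Res_q A → D_q`, `(a', a) ↦ jq ((τ a') a)`;
* `PsiMu τ q`: the pairing `Res_q A' × Res_q A → Res_q μ_p`, `(a', a) ↦ (τ a') a`;
* `pairH_tw` : `tw y ∪ x = y ∪_Φ x = jq_* (y ∪_Ψ x)`;
* `PH_balanced` : for endomorphisms `m`, `m'` adjoint for `τ`, `PH (m x) y = PH x (m' y)`;
* `PH_eq_zero_of_cup` : the seam of (P2): if `y ∪_Ψ x = 0` in `H²(G_q, μ_p)` then `PH x y = 0`.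
-/
import Fermat.Agent.S56.Base.Pairing.ClassPair

set_option autoImplicit false
set_option linter.unusedSectionVars false

noncomputable section

namespace Fermat.Agent.S56.Base.Pairing.ClassNat

open CategoryTheory ExtCitation groupCohomology
open Fermat.Agent.CFT.LC Fermat.Agent.CFT.LC.El Fermat.Agent.CFT.Bridge
  Fermat.Agent.CFT.D.ZpModel Fermat.Agent.CFT.A7 Fermat.Agent.CFT.A3 Fermat.Agent.CFT.Cup
  Fermat.Agent.CFT.A7.HomRep Fermat.Agent.CFT.D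
  Fermat.Agent.S56.Base.Pairing.CyclicP
  Fermat.Agent.S56.Base.Pairing.LocalObj Fermat.Agent.S56.Base.Pairing.LocDual
  Fermat.Agent.S56.Base.Pairing.ClassPair

variable {p : ℕ} [Fact p.Prime] {A A' : Rep.{0} (Zp p) GQ} (τ : A' ≅ homRep A (muZ p))
  (q : Nat.Primes)

/-- The pairing `Res_q A' × Res_q A → D_q`. -/
def Phi : Pairing (Rep.res (rq q) A') (Rep.res (rq q) A) (DqZ p q) :=
  (Pairing.eval (Rep.res (rq q) A) (DqZ p q)).comp (tw τ q) (𝟙 _) (𝟙 _)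

lemma Phi_toLin (a' : A'.V) (a : A.V) :
    (Phi τ q).toLin a' a = (jq p q).hom (toLin (τ.hom.hom a') a) := rfl

/-- The pairing `Res_q A' × Res_q A → Res_q μ_p`. -/
def PsiMu : Pairing (Rep.res (rq q) A') (Rep.res (rq q) A) (Rep.res (rq q) (muZ p)) :=
  ((Pairing.eval A (muZ p)).comp τ.hom (𝟙 _) (𝟙 _)).res (rq q)

lemma PsiMu_toLin (a' : A'.V) (a : A.V) :
    (PsiMu τ q).toLin a' a = toLin (τ.hom.hom a') a := rfl

/-- `tw y ∪ x = y ∪_Φ x`. -/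
theorem pairH_tw (x : H (Uq q) (Rep.res (rq q) A) 1) (y : H (Uq q) (Rep.res (rq q) A') 1) :
    pairH (rq q) A (DqZ p q) (mapId (𝒰 := Uq q) (tw τ q) 1 y) x =
      cupLC (Uq q) (Phi τ q) (show 1 + 1 = 2 from rfl) y x := by
  have h := cupLC_mapId (𝒰 := Uq q) (Phi τ q) (Pairing.eval (Rep.res (rq q) A) (DqZ p q))
    (tw τ q) (𝟙 _) (𝟙 _) (fun _ _ => rfl) (show 1 + 1 = 2 from rfl) y x
  have e2 : mapId (𝒰 := Uq q) (𝟙 (Rep.res (rq q) A)) 1 x = x := mapId_one_apply 1 x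
  have e3 : ∀ t : H (Uq q) (DqZ p q) 2, mapId (𝒰 := Uq q) (𝟙 (DqZ p q)) 2 t = t :=
    fun t => mapId_one_apply 2 t
  change cupLC (Uq q) (Pairing.eval (Rep.res (rq q) A) (DqZ p q)) _ (mapId (tw τ q) 1 y)
    (mapId (𝟙 _) 1 x) = mapId (𝟙 _) 2 _ at h
  rw [e2, e3] at h
  rw [pairH_apply]
  exact h

/-- `y ∪_Φ x = jq_* (y ∪_Ψ x)`. -/
theorem cup_Phi_eq (x : H (Uq q) (Rep.res (rq q) A) 1) (y : H (Uq q) (Rep.res (rq q) A') 1) :
    cupLC (Uq q) (Phi τ q) (show 1 + 1 = 2 from rfl) y x =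
      mapId (𝒰 := Uq q) (jq p q) 2
        (cupLC (Uq q) (PsiMu τ q) (show 1 + 1 = 2 from rfl) y x) := by
  have h := cupLC_mapId (𝒰 := Uq q) (PsiMu τ q) (Phi τ q) (𝟙 _) (𝟙 _) (jq p q)
    (fun _ _ => rfl) (show 1 + 1 = 2 from rfl) y x
  have e1 : mapId (𝒰 := Uq q) (𝟙 (Rep.res (rq q) A')) 1 y = y := mapId_one_apply 1 y
  have e2 : mapId (𝒰 := Uq q) (𝟙 (Rep.res (rq q) A)) 1 x = x := mapId_one_apply 1 x
  change cupLC (Uq q) (Phi τ q) _ (mapId (𝟙 _) 1 y) (mapId (𝟙 _) 1 x) = _ at h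
  rw [e1, e2] at h
  exact h

variable (hpA : ∀ a : A.V, ((p : ℕ) : Zp p) • a = 0)

/-- **The seam of (P2)**: the pairing vanishes as soon as the `μ_p`-valued cup product does. -/
theorem PH_eq_zero_of_cup (x : H (Uq q) (Rep.res (rq q) A) 1)
    (y : H (Uq q) (Rep.res (rq q) A') 1)
    (h : cupLC (Uq q) (PsiMu τ q) (show 1 + 1 = 2 from rfl) y x = 0) : PH τ q hpA x y = 0 := by
  rw [PH_apply, pairH_tw, cup_Phi_eq, h, map_zero]
  exact inv_zero p q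

/-- **Balancedness**: adjoint endomorphisms can be moved across the pairing. -/
theorem PH_balanced (m : A ⟶ A) (m' : A' ⟶ A')
    (hm : ∀ (a' : A'.V) (a : A.V),
      toLin (τ.hom.hom (m'.hom a')) a = toLin (τ.hom.hom a') (m.hom a))
    (x : H (Uq q) (Rep.res (rq q) A) 1) (y : H (Uq q) (Rep.res (rq q) A') 1) :
    PH τ q hpA (mapId (𝒰 := Uq q) ((Rep.resFunctor (rq q)).map m) 1 x) y =
      PH τ q hpA x (mapId (𝒰 := Uq q) ((Rep.resFunctor (rq q)).map m') 1 y) := by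
  rw [PH_apply, PH_apply, pairH_tw, pairH_tw]
  congr 1
  have h1 := cupLC_mapId (𝒰 := Uq q)
    ((Phi τ q).comp (𝟙 _) ((Rep.resFunctor (rq q)).map m) (𝟙 _)) (Phi τ q) (𝟙 _)
    ((Rep.resFunctor (rq q)).map m) (𝟙 _) (fun _ _ => rfl) (show 1 + 1 = 2 from rfl) y x
  have h2 := cupLC_mapId (𝒰 := Uq q)
    ((Phi τ q).comp ((Rep.resFunctor (rq q)).map m') (𝟙 _) (𝟙 _)) (Phi τ q)
    ((Rep.resFunctor (rq q)).map m') (𝟙 _) (𝟙 _) (fun _ _ => rfl) (show 1 + 1 = 2 from rfl) y x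
  have e : (Phi τ q).comp (𝟙 _) ((Rep.resFunctor (rq q)).map m) (𝟙 _) =
      (Phi τ q).comp ((Rep.resFunctor (rq q)).map m') (𝟙 _) (𝟙 _) := by
    ext a' a
    change (jq p q).hom (toLin (τ.hom.hom a') (m.hom a)) =
      (jq p q).hom (toLin (τ.hom.hom (m'.hom a')) a)
    rw [hm]
  rw [e] at h1
  have e1 : mapId (𝒰 := Uq q) (𝟙 (Rep.res (rq q) A')) 1 y = y := mapId_one_apply 1 y
  have e2 : mapId (𝒰 := Uq q) (𝟙 (Rep.res (rq q) A)) 1 x = x := mapId_one_apply 1 x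
  change cupLC (Uq q) (Phi τ q) _ (mapId (𝟙 _) 1 y) _ = _ at h1
  change cupLC (Uq q) (Phi τ q) _ _ (mapId (𝟙 _) 1 x) = _ at h2
  rw [e1] at h1
  rw [e2] at h2
  exact h1.trans h2.symm

end Fermat.Agent.S56.Base.Pairing.ClassNat
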