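/-
PROJECT T (S56), block (a1-II) = S56/Base (helper23): THE LOCAL PAIRINGS ON CLASSES FOR `ad⁰ρ̄`.

`rbar : GQ →* GL₂(k)`, `k` a finite field of characteristic `p ≠ 2`, `det rbar` cyclotomic, `ker rbar`
open.  `A = AK (Mrep rbar)`, `A' = AK (MrepTw rbar)` are the adjoint modules over `ℤ_(p)`,
`tauAd : A' ≅ Hom(A, μ_p)` is helper12's trace form (`TwistDict.eTw` with `E = μ_p`).

* `PHad q : H¹(G_q, A) →+ H¹(G_q, A') →+ ZMod p` with `PHad_left_nd`, `PHad_right_nd` (local N3 of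
  helper22), `PHad_balanced` (scalars of `k`), `PHad_eq_zero_of_cup` (seam of (P2)),
  `recip_ad` (P1; global inputs of S55 + helper28's supported classes).
-/
import Fermat.Agent.S56.Base.Pairing.ClassNat
import Fermat.Agent.S56.Base.Pairing.LocalN3
import Fermat.Agent.S56.Base.TwistDict

set_option autoImplicit false
set_option linter.unusedSectionVars false

noncomputable section

namespace Fermat.Agent.S56.Base.Pairing.Adjoint

open CategoryTheory ExtCitation groupCohomology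
open Fermat.Agent.CFT.LC Fermat.Agent.CFT.LC.El Fermat.Agent.CFT.Bridge
  Fermat.Agent.CFT.D.Reduce Fermat.Agent.CFT.D.ZpModel Fermat.Agent.CFT.A7
  Fermat.Agent.CFT.A3 Fermat.Agent.CFT.Cup
  Fermat.Agent.CFT.A7.HomRep Fermat.Agent.CFT.D.CoeffChange Fermat.Agent.CFT.D Fermat.Agent.CFT.D.DualTwist
  Fermat.Agent.CFT.D.DatumBuild
  Fermat.Agent.S56.Coh.CocDefs Fermat.Agent.S56.Base.TateDual
  Fermat.Agent.S56.Base.Pairing.LocalObj Fermat.Agent.S56.Base.Pairing.LocDual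
  Fermat.Agent.S56.Base.Pairing.Recip Fermat.Agent.S56.Base.Pairing.ClassPair
  Fermat.Agent.S56.Base.Pairing.ClassNat

variable {k : Type} [Field k] [Finite k] (p : ℕ) [Fact p.Prime] [Algebra (ZMod p) k]

/-- The structure map `ℤ_(p) → 𝔽_p → k`. -/
abbrev phiZ : Zp p →+* k := TwistDict.phiK k p (Fermat.Agent.CFT.D.ZpModel.phi p)

/-- A `k`-representation as a representation over `ℤ_(p)`. -/
abbrev AK (X : Rep.{0} k GQ) : Rep.{0} (Zp p) GQ := resScalars (phiZ (k := k) p) X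

lemma phiZ_p : phiZ (k := k) p ((p : ℕ) : Zp p) = 0 := by
  change algebraMap (ZMod p) k (Fermat.Agent.CFT.D.ZpModel.phi p ((p : ℕ) : Zp p)) = 0
  rw [map_natCast, ZMod.natCast_self, map_zero]

lemma natCast_smul_AK (X : Rep.{0} k GQ) (a : (AK p X).V) : ((p : ℕ) : Zp p) • a = 0 := by
  obtain ⟨x, rfl⟩ := (toRes (phiZ (k := k) p) X).surjective a
  rw [← toRes_smul, phiZ_p, zero_smul, map_zero]

/-- Scalar multiplication by `r : k` as an endomorphism over `ℤ_(p)`. -/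
def scal (r : k) (X : Rep.{0} k GQ) : AK p X ⟶ AK p X := resScalarsMap (phiZ (k := k) p) (r • 𝟙 X)

lemma scal_toRes (r : k) (X : Rep.{0} k GQ) (x : X.V) :
    (scal p r X).hom (toRes (phiZ (k := k) p) X x) = toRes (phiZ (k := k) p) X (r • x) := rfl

variable (rbar : GQ →* GL (Fin 2) k)

instance finite_AK_Mrep : Finite (AK p (Mrep rbar)).V := TwistDict.finite_resScalars_Mrep p rbar

/-- `ker rbar` acts trivially on `ad⁰`. -/
lemma Mrep_ρ_of_mem_ker {g : GQ} (hg : g ∈ rbar.ker) (x : (Mrep rbar).V) :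
    (Mrep rbar).ρ g x = x := by
  apply Subtype.ext
  rw [Mrep_ρ_coe, MonoidHom.mem_ker.1 hg, inv_one, Units.val_one, Matrix.one_mul, Matrix.mul_one]

lemma isSmooth_AK_Mrep (hopen : ∃ U ∈ levelsAll.sets, U ≤ rbar.ker) :
    IsSmooth levelsAll (AK p (Mrep rbar)) := by
  obtain ⟨U, hU, hle⟩ := hopen
  intro a
  refine ⟨U, hU, fun s hs => ?_⟩
  obtain ⟨x, rfl⟩ := (toRes (phiZ (k := k) p) (Mrep rbar)).surjective a
  rw [← toRes_ρ, Mrep_ρ_of_mem_ker rbar (hle hs)]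

variable (h2 : (2 : k) ≠ 0) (hdet : TwistDict.DetCyclo p rbar)

/-- **The trace form** `ad⁰(1) ≅ Hom(ad⁰, μ_p)` over `ℤ_(p)`. -/
def tauAd : AK p (MrepTw rbar) ≅ homRep (AK p (Mrep rbar)) (muZ p) :=
  TwistDict.eTw p (Fermat.Agent.CFT.D.ZpModel.phi p) (𝟙 (muZ p)) h2 hdet Function.injective_id
    (fun e _ => ⟨e, rfl⟩)

lemma toLin_tauAd (x y : sl2 k) :
    toLin ((tauAd p rbar h2 hdet).hom.hom (toRes (phiZ (k := k) p) (MrepTw rbar) x))
        (toRes (phiZ (k := k) p) (Mrep rbar) y) =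
      toRes (Fermat.Agent.CFT.D.ZpModel.phi p) (chiRep (cycloChar p)) (TwistDict.trPair p x y) :=
  TwistDict.toLin_eTw_hom p (Fermat.Agent.CFT.D.ZpModel.phi p) (𝟙 (muZ p)) h2 hdet
    Function.injective_id (fun e _ => ⟨e, rfl⟩) x y

/-- The scalars of `k` are self-adjoint for the trace form. -/
lemma tauAd_scal (r : k) (a' : (AK p (MrepTw rbar)).V) (a : (AK p (Mrep rbar)).V) :
    toLin ((tauAd p rbar h2 hdet).hom.hom ((scal p r (MrepTw rbar)).hom a')) a =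
      toLin ((tauAd p rbar h2 hdet).hom.hom a') ((scal p r (Mrep rbar)).hom a) := by
  obtain ⟨x, rfl⟩ := (toRes (phiZ (k := k) p) (MrepTw rbar)).surjective a'
  obtain ⟨y, rfl⟩ := (toRes (phiZ (k := k) p) (Mrep rbar)).surjective a
  rw [scal_toRes, scal_toRes]
  exact TwistDict.toLin_eTw_hom_smul p (Fermat.Agent.CFT.D.ZpModel.phi p) (𝟙 (muZ p)) h2 hdet
    Function.injective_id (fun e _ => ⟨e, rfl⟩) r x y

/-! ### The pairings -/

variable (q : Nat.Primes)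

/-- **The local pairing on classes for `ad⁰ρ̄`.** -/
def PHad : H (Uq q) (Rep.res (rq q) (AK p (Mrep rbar))) 1 →+
    H (Uq q) (Rep.res (rq q) (AK p (MrepTw rbar))) 1 →+ ZMod p :=
  PH (tauAd p rbar h2 hdet) q (natCast_smul_AK p (Mrep rbar))

/-- Local (N3) at `q` (helper22). -/
lemma n3q : N3Cofinal (Uq q) (DqZ p q) p :=
  Fermat.Agent.S56.Base.Pairing.LocalN3.n3_DlocK p (Sq p q) (qS p q)

variable (hopen : ∃ U ∈ levelsAll.sets, U ≤ rbar.ker)

include hopen in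
theorem PHad_left_nd (x : H (Uq q) (Rep.res (rq q) (AK p (Mrep rbar))) 1)
    (h : ∀ y, PHad p rbar h2 hdet q x y = 0) : x = 0 :=
  PH_left_nd (tauAd p rbar h2 hdet) q (natCast_smul_AK p (Mrep rbar))
    (isSmooth_AK_Mrep p rbar hopen) x h

include hopen in
theorem PHad_right_nd (y : H (Uq q) (Rep.res (rq q) (AK p (MrepTw rbar))) 1)
    (h : ∀ x, PHad p rbar h2 hdet q x y = 0) : y = 0 :=
  PH_right_nd (tauAd p rbar h2 hdet) q (natCast_smul_AK p (Mrep rbar))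
    (isSmooth_AK_Mrep p rbar hopen) (n3q p q) y h

theorem PHad_balanced (r : k) (x : H (Uq q) (Rep.res (rq q) (AK p (Mrep rbar))) 1)
    (y : H (Uq q) (Rep.res (rq q) (AK p (MrepTw rbar))) 1) :
    PHad p rbar h2 hdet q
        (mapId (𝒰 := Uq q) ((Rep.resFunctor (rq q)).map (scal p r (Mrep rbar))) 1 x) y =
      PHad p rbar h2 hdet q x
        (mapId (𝒰 := Uq q) ((Rep.resFunctor (rq q)).map (scal p r (MrepTw rbar))) 1 y) :=
  PH_balanced (tauAd p rbar h2 hdet) q (natCast_smul_AK p (Mrep rbar)) (scal p r (Mrep rbar))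
    (scal p r (MrepTw rbar)) (tauAd_scal p rbar h2 hdet r) x y

theorem PHad_eq_zero_of_cup (x : H (Uq q) (Rep.res (rq q) (AK p (Mrep rbar))) 1)
    (y : H (Uq q) (Rep.res (rq q) (AK p (MrepTw rbar))) 1)
    (h : cupLC (Uq q) (PsiMu (tauAd p rbar h2 hdet) q) (show 1 + 1 = 2 from rfl) y x = 0) :
    PHad p rbar h2 hdet q x y = 0 :=
  PH_eq_zero_of_cup (tauAd p rbar h2 hdet) q (natCast_smul_AK p (Mrep rbar)) x y h

/-- **Reciprocity (P1)** for `ad⁰ρ̄`, on classes of `G_S`. -/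
theorem recip_ad (S : Finset Nat.Primes) (hpS : pPrime p ∈ S) (g : GlobalInputs p S)
    (hSC : SuppClasses (theDatum hpS g)) :
    ∃ u : ↥S → (ZMod p)ˣ, ∀ {k : Type} [Field k] [Finite k] [Algebra (ZMod p) k]
      (rbar : GQ →* GL (Fin 2) k) (h2 : (2 : k) ≠ 0) (hdet : TwistDict.DetCyclo p rbar)
      (x : H (levelsS S) (AK p (Mrep rbar)) 1) (y : H (levelsS S) (AK p (MrepTw rbar)) 1),
      ∑ q : ↥S, (u q : ZMod p) * PHad p rbar h2 hdet q.1
        (map (A := AK p (Mrep rbar)) (B := Rep.res (rv S q) (AK p (Mrep rbar))) (hrv S q) (𝟙 _) 1 x)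
        (map (A := AK p (MrepTw rbar)) (B := Rep.res (rv S q) (AK p (MrepTw rbar))) (hrv S q)
          (𝟙 _) 1 y) = 0 := by
  obtain ⟨u, hu⟩ := recip_class S hpS g hSC
  exact ⟨u, fun rbar h2 hdet x y =>
    hu _ _ (tauAd p rbar h2 hdet) (natCast_smul_AK p (Mrep rbar)) x y⟩

end Fermat.Agent.S56.Base.Pairing.Adjoint
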