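/-
PROJECT T (S56), block (a1-II), Pairing leaf (SC) (helper28): ONE CLASS OF ORDER `p` PER PRIME OF
`S` IN `H²(G_S, J_S ⊗ ℤ_(p))`, supported at that prime, with nonzero image in
`H²(G_S, C_S ⊗ ℤ_(p))`.

`suppClasses`: for every `q ∈ S` there is `e ∈ H²(G_S, J_S ⊗ ℤ_(p))` with `p • e = 0`, whose
localisations at the primes `q' ≠ q` of `S` vanish and whose image in `H²(G_S, C_S ⊗ ℤ_(p))` is
nonzero.  It is the push-forward along `J_q ⊗ ℤ_(p) → J_S ⊗ ℤ_(p)` of the class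
`DatumBuild.exists_y0` of main.
-/
import Fermat.Agent.CFT.D.Datum.SuppClass

set_option autoImplicit false

noncomputable section

namespace Fermat.Agent.S56.Base.Pairing.SuppClasses

open CategoryTheory ExtCitation
open Fermat.Agent.CFT.LC Fermat.Agent.CFT.LC.El Fermat.Agent.CFT.Bridge Fermat.Agent.CFT.A7
  Fermat.Agent.CFT.D Fermat.Agent.CFT.D.ZpModel Fermat.Agent.CFT.D.Reduce
  Fermat.Agent.CFT.D.DatumInjFrob Fermat.Agent.CFT.D.DatumBuild Fermat.Agent.CFT.C7.SES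

/-- **One class of order `p` per prime of `S`**, supported at that prime, not dying in
`H²(G_S, C_S ⊗ ℤ_(p))`. -/
theorem suppClasses (p : ℕ) [Fact p.Prime] (S : Finset Nat.Primes) (hp2 : p ≠ 2)
    (hpS : pPrime p ∈ S) (cf : ClassFormation (levelsS S) (seqK S (Zp p)).X₃) :
    ∀ q : ↥S, ∃ e : H (levelsS S) (seqK S (Zp p)).X₂ 2, p • e = 0 ∧
      (∀ q' : ↥S, q' ≠ q → map (A := (seqK S (Zp p)).X₂) (B := DlocK S (Zp p) q') (hrv S q')
        (piJK S (Zp p) q') 2 e = 0) ∧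
      mapId (seqK S (Zp p)).g 2 e ≠ 0 := by
  intro q
  obtain ⟨y₀, hy1, hy2⟩ := exists_y0 p S hp2 hpS cf q
  -- the class, as an element of `H²(G_S, J_S ⊗ ℤ_(p))`
  let e : H (levelsS S) (JK S (Zp p)) 2 := mapId (𝒰 := levelsS S) ((biprodK S (Zp p)).i q) 2 y₀
  have he1 : p • e = 0 := by
    have h : (p : Zp p) • e = 0 := by
      change (p : Zp p) • (mapId (𝒰 := levelsS S) ((biprodK S (Zp p)).i q) 2).hom y₀ = 0
      rw [← map_smul, hy1, map_zero]
    rw [← Nat.cast_smul_eq_nsmul (Zp p)]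
    exact h
  have he2 : ∀ q' : ↥S, q' ≠ q → map (A := JK S (Zp p)) (B := DlocK S (Zp p) q') (hrv S q')
      (piJK S (Zp p) q') 2 e = 0 := by
    intro q' hq'
    have h1 := (biprodK S (Zp p)).map_loc (rv S) (hrv S) (piqK S (Zp p)) 2 q' e
    have h2 := (biprodK S (Zp p)).mapId_p_mapId_i_of_ne (𝒰 := levelsS S) 2 (Ne.symm hq') y₀
    rw [h2, map_zero] at h1
    exact h1
  have he3 : mapId (𝒰 := levelsS S) (A := JK S (Zp p)) (seqK S (Zp p)).g 2 e ≠ 0 := by
    intro h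
    apply hy2
    rw [← mapId_mapId_apply]
    exact h
  exact ⟨e, he1, he2, he3⟩

end Fermat.Agent.S56.Base.Pairing.SuppClasses
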