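/-
PROJECT T (S56), block (a1-II) = S56/Base (helper23): THE LOCAL PAIRING INTERFACE FOR `ad⁰ρ̄`.

`localPairing : Coh.LocPairing p (Mrep rbar) (MrepTw rbar)`: the pairings on local cocycles are the
class-level pairings `PHad` of `Adjoint` composed with the class maps `clsq` of `Dict/Loc`.
-/
import Fermat.Agent.S56.Coh.LocPairing
import Fermat.Agent.S56.Base.Pairing.Adjoint
import Fermat.Agent.S56.Base.Pairing.SuppClasses
import Fermat.Agent.S56.Base.Pairing.UnrCup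
import Fermat.Agent.S56.Base.Arith.UnrFrob
import Fermat.Agent.S56.Base.Pairing.Dict.Glob
import Fermat.Agent.S56.Base.Pairing.Dict.Loc
import Fermat.Agent.CFT.C7.GlobalCF
import Fermat.Agent.CFT.D.Datum.SuppClass
import Fermat.Agent.CFT.C7.F2Final
import Fermat.Agent.CFT.Bridge.Cyclo

set_option autoImplicit false
set_option linter.unusedSectionVars false

noncomputable section

namespace Fermat.Agent.S56.Base.Pairing.Export

open CategoryTheory ExtCitation groupCohomology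
open Fermat.Agent.CFT.LC Fermat.Agent.CFT.LC.El Fermat.Agent.CFT.Bridge
  Fermat.Agent.CFT.LocalBridge
  Fermat.Agent.CFT.D.Reduce Fermat.Agent.CFT.D.ZpModel Fermat.Agent.CFT.A7
  Fermat.Agent.CFT.A3 Fermat.Agent.CFT.Cup
  Fermat.Agent.CFT.A7.HomRep Fermat.Agent.CFT.D.CoeffChange Fermat.Agent.CFT.D
  Fermat.Agent.CFT.D.DualTwist Fermat.Agent.CFT.D.DatumBuild
  Fermat.Agent.S56.Coh Fermat.Agent.S56.Coh.CocDefs Fermat.Agent.S56.Base.TateDual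
  Fermat.Agent.S56.Base.Pairing.LocalObj Fermat.Agent.S56.Base.Pairing.LocDual
  Fermat.Agent.S56.Base.Pairing.Recip Fermat.Agent.S56.Base.Pairing.ClassPair
  Fermat.Agent.S56.Base.Pairing.ClassNat Fermat.Agent.S56.Base.Pairing.Adjoint
  Fermat.Agent.S56.Base.Pairing.Dict.Loc

variable {k : Type} [Field k] [Finite k] (p : ℕ) [Fact p.Prime] [Algebra (ZMod p) k]

/-- `2` is invertible in `k` when `p ≠ 2`. -/
lemma two_ne_zero_of_ne (hp2 : p ≠ 2) : (2 : k) ≠ 0 := by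
  intro h
  have h1 : algebraMap (ZMod p) k ((2 : ℕ) : ZMod p) = 0 := by
    rw [map_natCast]
    exact_mod_cast h
  have h2 : ((2 : ℕ) : ZMod p) = 0 :=
    (map_eq_zero_iff _ (algebraMap (ZMod p) k).injective).1 h1
  rw [ZMod.natCast_eq_zero_iff] at h2
  exact hp2 ((Nat.prime_dvd_prime_iff_eq (Fact.out : p.Prime) Nat.prime_two).1 h2)

variable (rbar : GQ →* GL (Fin 2) k)

instance finite_AK_MrepTw : Finite (AK p (MrepTw rbar)).V :=
  TwistDict.finite_resScalars_MrepTw p rbar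

/-- `ker rbar` acts trivially on `ad⁰(1)`. -/
lemma MrepTw_ρ_of_mem_ker {g : GQ} (hg : g ∈ rbar.ker) (x : (MrepTw rbar).V) :
    (MrepTw rbar).ρ g x = x := by
  apply Subtype.ext
  rw [MrepTw_ρ_coe, MonoidHom.mem_ker.1 hg, inv_one, Units.val_one, Matrix.one_mul, Matrix.mul_one]
  simp

lemma isSmooth_AK_MrepTw (hopen : ∃ U ∈ levelsAll.sets, U ≤ rbar.ker) :
    IsSmooth levelsAll (AK p (MrepTw rbar)) := by
  obtain ⟨U, hU, hle⟩ := hopen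
  intro a
  refine ⟨U, hU, fun s hs => ?_⟩
  obtain ⟨x, rfl⟩ := (toRes (phiZ (k := k) p) (MrepTw rbar)).surjective a
  rw [← toRes_ρ, MrepTw_ρ_of_mem_ker rbar (hle hs)]

variable (h2 : (2 : k) ≠ 0) (hdet : TwistDict.DetCyclo p rbar)

/-- The pairing on local cocycles at `q`. -/
def pairAt (q : ℕ) [Fact q.Prime] :
    ↥(Z1 (Dq q) (Mrep rbar)) →+ ↥(Z1 (Dq q) (MrepTw rbar)) →+ ZMod p :=
  ((PHad p rbar h2 hdet (qP q)).compl₂ (clsq (phiZ (k := k) p) q (MrepTw rbar))).comp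
    (clsq (phiZ (k := k) p) q (Mrep rbar))

lemma pairAt_apply (q : ℕ) [Fact q.Prime] (x : ↥(Z1 (Dq q) (Mrep rbar)))
    (y : ↥(Z1 (Dq q) (MrepTw rbar))) :
    pairAt p rbar h2 hdet q x y =
      PHad p rbar h2 hdet (qP q) (clsq (phiZ (k := k) p) q (Mrep rbar) x)
        (clsq (phiZ (k := k) p) q (MrepTw rbar) y) := rfl

lemma pairAt_left_B1 (q : ℕ) [Fact q.Prime] (x : ↥(Z1 (Dq q) (Mrep rbar)))
    (y : ↥(Z1 (Dq q) (MrepTw rbar))) (hx : x.1 ∈ B1 (Dq q) (Mrep rbar)) :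
    pairAt p rbar h2 hdet q x y = 0 := by
  rw [pairAt_apply, (clsq_eq_zero_iff (phiZ (k := k) p) q (Mrep rbar) x).2 hx, map_zero]
  rfl

lemma pairAt_right_B1 (q : ℕ) [Fact q.Prime] (x : ↥(Z1 (Dq q) (Mrep rbar)))
    (y : ↥(Z1 (Dq q) (MrepTw rbar))) (hy : y.1 ∈ B1 (Dq q) (MrepTw rbar)) :
    pairAt p rbar h2 hdet q x y = 0 := by
  rw [pairAt_apply, (clsq_eq_zero_iff (phiZ (k := k) p) q (MrepTw rbar) y).2 hy, map_zero]

lemma pairAt_balanced (q : ℕ) [Fact q.Prime] (r : k) (x : ↥(Z1 (Dq q) (Mrep rbar)))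
    (y : ↥(Z1 (Dq q) (MrepTw rbar))) :
    pairAt p rbar h2 hdet q (r • x) y = pairAt p rbar h2 hdet q x (r • y) := by
  rw [pairAt_apply, pairAt_apply, clsq_smul, clsq_smul]
  exact PHad_balanced p rbar h2 hdet (qP q) r _ _

variable (hopen : ∃ U ∈ levelsAll.sets, U ≤ rbar.ker)

include hopen in
lemma pairAt_nd (q : ℕ) [Fact q.Prime] (y : ↥(Z1 (Dq q) (MrepTw rbar)))
    (h : ∀ x : ↥(Z1 (Dq q) (Mrep rbar)), pairAt p rbar h2 hdet q x y = 0) :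
    y.1 ∈ B1 (Dq q) (MrepTw rbar) := by
  rw [← clsq_eq_zero_iff (phiZ (k := k) p) q (MrepTw rbar) y]
  refine PHad_right_nd p rbar h2 hdet (qP q) hopen _ fun ξ => ?_
  obtain ⟨x, rfl⟩ := clsq_surjective (phiZ (k := k) p) q (Mrep rbar) ξ
  exact h x

include hopen in
lemma pairAt_ndL (q : ℕ) [Fact q.Prime] (x : ↥(Z1 (Dq q) (Mrep rbar)))
    (h : ∀ y : ↥(Z1 (Dq q) (MrepTw rbar)), pairAt p rbar h2 hdet q x y = 0) :
    x.1 ∈ B1 (Dq q) (Mrep rbar) := by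
  rw [← clsq_eq_zero_iff (phiZ (k := k) p) q (Mrep rbar) x]
  refine PHad_left_nd p rbar h2 hdet (qP q) hopen _ fun η => ?_
  obtain ⟨y, rfl⟩ := clsq_surjective (phiZ (k := k) p) q (MrepTw rbar) η
  exact h y

/-- Inertia at `q ≠ p` acts trivially on `μ_p`. -/
lemma muZ_ρ_of_mem_Iq (q : ℕ) [Fact q.Prime] (hqp : q ≠ p) {g : GQ} (hg : g ∈ Iq q)
    (v : (muZ p).V) : (muZ p).ρ g v = v := by
  obtain ⟨c, rfl⟩ := (toRes (Fermat.Agent.CFT.D.ZpModel.phi p) (chiRep (cycloChar p))).surjective v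
  rw [← toRes_ρ, chiRep_ρ_apply,
    cycloChar_eq_one_of_mem_inertia p (Fact.out : q.Prime) hqp (padicPlace q)
      (liesOverPrime_padicPlace q) hg, Units.val_one, one_mul]

/-- The data of (P2) at `q`, stated on the prelude's local group: the inertia subgroup, a Frobenius
lift, and the two properties of helper12's `UnrFrob`. -/
lemma exists_unr_data (q : ℕ) [Fact q.Prime] :
    ∃ (I : Subgroup (Gq (qP q))) (_ : I.Normal) (φ : Gq (qP q)),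
      (∀ s, s ∈ I ↔ rq (qP q) s ∈ Iq q) ∧
      (∀ U ∈ (Uq (qP q)).sets, ∀ g : Gq (qP q), ∃ i : ℕ, ∃ s ∈ I, ∃ u ∈ U, g = φ ^ i * s * u) ∧
      (∀ m : ℕ, 0 < m → ∃ U ∈ (Uq (qP q)).sets, ∀ i : ℕ,
        (∃ s ∈ I, ∃ u ∈ U, φ ^ i = s * u) → m ∣ i) := by
  obtain ⟨φ, hPC, hUE⟩ := Fermat.Agent.S56.Base.Arith.UnrFrob.exists_frob_unr q
  exact ⟨(Iq q).comap (localGaloisToGlobal q),
    Fermat.Agent.S56.Base.Arith.UnrFrob.normal_comap_Iq q, φ, fun s => Iff.rfl, hPC, hUE⟩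

include hopen in
lemma pairAt_unr (q : ℕ) [Fact q.Prime] (hqp : q ≠ p)
    (hM : ∀ s ∈ Iq q, ∀ m : Mrep rbar, (Mrep rbar).ρ s m = m)
    (hM' : ∀ s ∈ Iq q, ∀ m : MrepTw rbar, (MrepTw rbar).ρ s m = m)
    (x : ↥(Z1 (Dq q) (Mrep rbar))) (y : ↥(Z1 (Dq q) (MrepTw rbar)))
    (hx : x.1 ∈ Z1unr q (Mrep rbar)) (hy : y.1 ∈ Z1unr q (MrepTw rbar)) :
    pairAt p rbar h2 hdet q x y = 0 := by
  rw [pairAt_apply]
  apply PHad_eq_zero_of_cup
  obtain ⟨zx, hzx, hzx'⟩ := exists_rep (phiZ (k := k) p) q (Mrep rbar) x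
  obtain ⟨zy, hzy, hzy'⟩ := exists_rep (phiZ (k := k) p) q (MrepTw rbar) y
  rw [← hzx, ← hzy]
  obtain ⟨I, hIn, φ, hI, hPC, hUE⟩ := exists_unr_data q
  have hxI : ∀ s ∈ I, zx.1.1 (fun _ => s) = 0 := by
    intro s hs
    obtain ⟨-, a, ha⟩ := hx
    have h0 : x.1 ⟨_, loc_mem_Dq q s⟩ = 0 := by
      rw [ha ⟨_, loc_mem_Dq q s⟩ ((hI s).1 hs)]
      exact sub_eq_zero.2 (hM _ ((hI s).1 hs) a)
    rw [hzx' s, h0, map_zero]
  have hyI : ∀ s ∈ I, zy.1.1 (fun _ => s) = 0 := by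
    intro s hs
    obtain ⟨-, a, ha⟩ := hy
    have h0 : y.1 ⟨_, loc_mem_Dq q s⟩ = 0 := by
      rw [ha ⟨_, loc_mem_Dq q s⟩ ((hI s).1 hs)]
      exact sub_eq_zero.2 (hM' _ ((hI s).1 hs) a)
    rw [hzy' s, h0, map_zero]
  refine Fermat.Agent.S56.Base.Pairing.UnrCup.cupLC_eq_zero_of_unr (Uq (qP q)) I φ hPC hUE
    (IsSmooth.res_of_continuous (hrq (qP q)) (isSmooth_AK_MrepTw p rbar hopen))
    (IsSmooth.res_of_continuous (hrq (qP q)) (isSmooth_AK_Mrep p rbar hopen))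
    (IsSmooth.of_injective (isSmooth_DqZ p (qP q)) (jq p (qP q)) (jq_injective p (qP q)))
    (PsiMu (tauAd p rbar h2 hdet) (qP q)) ?_ ?_ ?_ p (Fact.out : p.Prime).pos ?_ zy zx hyI hxI
  · intro s hs a
    obtain ⟨m, rfl⟩ := (toRes (phiZ (k := k) p) (MrepTw rbar)).surjective a
    change (AK p (MrepTw rbar)).ρ (rq (qP q) s) _ = _
    rw [← toRes_ρ, hM' _ ((hI s).1 hs)]
  · intro s hs a
    obtain ⟨m, rfl⟩ := (toRes (phiZ (k := k) p) (Mrep rbar)).surjective a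
    change (AK p (Mrep rbar)).ρ (rq (qP q) s) _ = _
    rw [← toRes_ρ, hM _ ((hI s).1 hs)]
  · intro s hs a b
    exact muZ_ρ_of_mem_Iq p q hqp ((hI s).1 hs) _
  · intro a b
    rw [← Nat.cast_smul_eq_nsmul (Zp p)]
    exact natCast_smul_resScalars (Fermat.Agent.CFT.D.ZpModel.phi p) (chiRep (cycloChar p)) _

open Fermat.Agent.CFT in
include hopen in
theorem pairAt_recip (hp2 : p ≠ 2) (Sg : Finset ℕ) (hprime : ∀ q ∈ Sg, q.Prime) (hpSg : p ∈ Sg)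
    (hunr : ∀ (q : ℕ) [Fact q.Prime], q ∉ Sg → ∀ s ∈ Iq q,
      (∀ m : Mrep rbar, (Mrep rbar).ρ s m = m) ∧ ∀ m : MrepTw rbar, (MrepTw rbar).ρ s m = m) :
    ∃ u : ℕ → (ZMod p)ˣ, ∀ (x : ↥(Z1g (Mrep rbar))) (y : ↥(Z1g (MrepTw rbar))),
      (∀ (q : ℕ) [Fact q.Prime], q ∉ Sg → IsUnramAt q x.1 ∧ IsUnramAt q y.1) →
      ∑ q ∈ Sg, (u q : ZMod p) *
        (if h : q.Prime then
          haveI : Fact q.Prime := ⟨h⟩
          pairAt p rbar h2 hdet q (resZ (Dq q) (Mrep rbar) x) (resZ (Dq q) (MrepTw rbar) y)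
        else 0) = 0 := by
  classical
  set S : Finset Nat.Primes := Sg.subtype Nat.Prime with hS
  have hmem : ∀ q : Nat.Primes, q ∈ S ↔ (q : ℕ) ∈ Sg := fun q => Finset.mem_subtype
  have hpS : pPrime p ∈ S := (hmem _).2 hpSg
  let g : GlobalInputs p S := ⟨C7.GlobalCF.globalCF S p hp2 ⟨_, hpS⟩,
    supp_of_cf p S hp2 hpS (C7.GlobalCF.globalCF S p hp2 ⟨_, hpS⟩),
    C7.F2Final.n3_Zp_of_cf p S hp2 hpS (C7.GlobalCF.globalCF S p hp2 ⟨_, hpS⟩)⟩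
  have hSC := Fermat.Agent.S56.Base.Pairing.SuppClasses.suppClasses p S hp2 hpS g.cf
  obtain ⟨u, hu⟩ := recip_ad p S hpS g hSC
  refine ⟨fun q => if h : q.Prime ∧ q ∈ Sg then u ⟨⟨q, h.1⟩, (hmem _).2 h.2⟩ else 1,
    fun x y hxy => ?_⟩
  obtain ⟨U₀, hU₀, hU₀le⟩ := hopen
  have hnS : ∀ (q : ℕ) [Fact q.Prime], (⟨q, Fact.out⟩ : Nat.Primes) ∉ S → q ∉ Sg :=
    fun q _ hq h => hq ((hmem _).2 h)
  have hxS : x.1 ∈ Z₁ (levelsS S) (Mrep rbar) :=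
    Fermat.Agent.S56.Base.Pairing.Dict.Glob.mem_Z₁_levelsS S (Mrep rbar)
      ⟨U₀, hU₀, fun s hs m => Mrep_ρ_of_mem_ker rbar (hU₀le hs) m⟩
      (fun q _ hq s hs => (hunr q (hnS q hq) s hs).1) x.1 x.2
      (fun q _ hq => (hxy q (hnS q hq)).1)
  have hyS : y.1 ∈ Z₁ (levelsS S) (MrepTw rbar) :=
    Fermat.Agent.S56.Base.Pairing.Dict.Glob.mem_Z₁_levelsS S (MrepTw rbar)
      ⟨U₀, hU₀, fun s hs m => MrepTw_ρ_of_mem_ker rbar (hU₀le hs) m⟩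
      (fun q _ hq s hs => (hunr q (hnS q hq) s hs).2) y.1 y.2
      (fun q _ hq => (hxy q (hnS q hq)).2)
  have key := hu rbar h2 hdet
    (hEquiv (phiZ (k := k) p) (levelsS S) (Mrep rbar) 1 (H1π' (levelsS S) (Mrep rbar) ⟨x.1, hxS⟩))
    (hEquiv (phiZ (k := k) p) (levelsS S) (MrepTw rbar) 1
      (H1π' (levelsS S) (MrepTw rbar) ⟨y.1, hyS⟩))
  -- the summands
  set F : ℕ → ZMod p := fun q =>
    ((if h : q.Prime ∧ q ∈ Sg then u ⟨⟨q, h.1⟩, (hmem _).2 h.2⟩ else 1 : (ZMod p)ˣ) : ZMod p) *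
      (if h : q.Prime then
        haveI : Fact q.Prime := ⟨h⟩
        pairAt p rbar h2 hdet q (resZ (Dq q) (Mrep rbar) x) (resZ (Dq q) (MrepTw rbar) y)
      else 0) with hF
  have hsum : ∑ q ∈ Sg, F q = ∑ q : ↥S, F ((q : Nat.Primes) : ℕ) := by
    have h1 : ∑ q ∈ Sg.subtype Nat.Prime, F (q : ℕ) = ∑ q ∈ Sg.filter Nat.Prime, F q :=
      Finset.sum_subtype_eq_sum_filter F
    rw [Finset.sum_coe_sort S (fun q : Nat.Primes => F (q : ℕ)), hS]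
    rw [Finset.filter_true_of_mem hprime] at h1
    exact h1.symm
  change ∑ q ∈ Sg, F q = 0
  rw [hsum, ← key]
  refine Finset.sum_congr rfl fun q _ => ?_
  haveI : Fact ((q.1 : ℕ)).Prime := ⟨q.1.2⟩
  dsimp only [F]
  rw [dif_pos (⟨q.1.2, (hmem _).1 q.2⟩ : ((q.1 : ℕ)).Prime ∧ (q.1 : ℕ) ∈ Sg), dif_pos q.1.2,
    pairAt_apply]
  rw [map_cls_eq (phiZ (k := k) p) (Mrep rbar) S q x hxS,
    map_cls_eq (phiZ (k := k) p) (MrepTw rbar) S q y hyS]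
  rfl

/-- **The local pairing interface for `ad⁰ρ̄`** (`k` a finite field of characteristic `p ≠ 2`,
`det ρ̄` cyclotomic, `ker ρ̄` open). -/
def localPairing (hp2 : p ≠ 2) (rbar : GQ →* GL (Fin 2) k) (hdet : TwistDict.DetCyclo p rbar)
    (hopen : ∃ U ∈ levelsAll.sets, U ≤ rbar.ker) :
    LocPairing p (Mrep rbar) (MrepTw rbar) where
  pair q _ := pairAt p rbar (two_ne_zero_of_ne p hp2) hdet q
  left_B1 q _ x y hx := pairAt_left_B1 p rbar (two_ne_zero_of_ne p hp2) hdet q x y hx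
  right_B1 q _ x y hy := pairAt_right_B1 p rbar (two_ne_zero_of_ne p hp2) hdet q x y hy
  balanced q _ r x y := pairAt_balanced p rbar (two_ne_zero_of_ne p hp2) hdet q r x y
  recip Sg hprime hpSg hunr :=
    pairAt_recip p rbar (two_ne_zero_of_ne p hp2) hdet hopen hp2 Sg hprime hpSg hunr
  unr q _ hqp hM hM' x y hx hy :=
    pairAt_unr p rbar (two_ne_zero_of_ne p hp2) hdet hopen q hqp hM hM' x y hx hy
  nd q _ y h := pairAt_nd p rbar (two_ne_zero_of_ne p hp2) hdet hopen q y h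
  ndL q _ x h := pairAt_ndL p rbar (two_ne_zero_of_ne p hp2) hdet hopen q x h

end Fermat.Agent.S56.Base.Pairing.Export
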