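/-
PROJECT T (S56), block (a1-II) Base/Pairing, leaf (P2-a) (helper4; literal of helper23):
the cup product of two UNRAMIFIED level-constant `1`-cocycles vanishes in `H²`
(`H²(Ẑ, torsion) = 0`, done by hand on level-constant cochains).

Setting: `G` a group with a family of levels `𝒰`, `I` a normal subgroup ("inertia"), `φ : G`
("Frobenius") such that `G = ⟨φ⟩ · I · U` for every level `U` (`hPC`) and such that the order of
`φ` modulo `I · U` is divisible by any prescribed `m` for a suitable level `U` (`hUE`).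
For `1`-cocycles `x`, `y` vanishing on `I`, with values in finite modules on which `I` acts
trivially, and a pairing `ψ` whose values are killed by `p`, the `2`-cocycle
`c (g, h) = ψ (x g) (g • y h)` is the coboundary of the level-constant cochain
`b (φ ^ i · s · u) = - ∑_{j < i} c (φ ^ j, φ)`.
-/
import Mathlib
import Fermat.Agent.CFT.A3.CupLC
import Fermat.Agent.CFT.A3.LowDegree
import Fermat.Agent.CFT.LC.LowDegree

set_option autoImplicit false

noncomputable section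

namespace Fermat.Agent.S56.Base.Pairing.UnrCup

open CategoryTheory groupCohomology
open Fermat.Agent.CFT.LC Fermat.Agent.CFT.Cup Fermat.Agent.CFT.A3

/-! ### The abstract core: functions `G → A`, `G → B`, no levels -/

section Core

variable {k G : Type} [CommRing k] [Group G] {A B N : Rep.{0} k G} (ψ : Pairing A B N)
  (xf : G → A.V) (yf : G → B.V) (φ : G)

/-- `stepF j = c (φ ^ j, φ)` for the cup cochain `c (g, h) = ψ (x g) (g • y h)`. -/
def stepF (j : ℕ) : N.V := ψ.toLin (xf (φ ^ j)) (B.ρ (φ ^ j) (yf φ))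

/-- `beta i = ∑_{j < i} c (φ ^ j, φ)`. -/
def beta (i : ℕ) : N.V := ∑ j ∈ Finset.range i, stepF ψ xf yf φ j

lemma beta_zero : beta ψ xf yf φ 0 = 0 := by simp [beta]

lemma beta_succ (i : ℕ) :
    beta ψ xf yf φ (i + 1) = beta ψ xf yf φ i + stepF ψ xf yf φ i := by
  simp [beta, Finset.sum_range_succ]

variable {ψ xf yf φ}

lemma map_one_eq_zero (hyc : ∀ g h, yf (g * h) = yf g + B.ρ g (yf h)) : yf 1 = 0 := by
  have h := hyc 1 1
  simpa using h

/-- The cup cochain on powers of `φ` is (minus) the coboundary of `beta`. -/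
lemma cup_pow_pow (hxc : ∀ g h, xf (g * h) = xf g + A.ρ g (xf h))
    (hyc : ∀ g h, yf (g * h) = yf g + B.ρ g (yf h)) (i m : ℕ) :
    ψ.toLin (xf (φ ^ i)) (B.ρ (φ ^ i) (yf (φ ^ m))) =
      beta ψ xf yf φ (i + m) - beta ψ xf yf φ i - N.ρ (φ ^ i) (beta ψ xf yf φ m) := by
  induction m with
  | zero => simp [map_one_eq_zero hyc, beta_zero]
  | succ m ih =>
    have hf : stepF ψ xf yf φ (i + m) =
        ψ.toLin (xf (φ ^ i)) (B.ρ (φ ^ (i + m)) (yf φ)) + N.ρ (φ ^ i) (stepF ψ xf yf φ m) := by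
      unfold stepF
      rw [pow_add, hxc, map_add, LinearMap.add_apply, ψ.ρ_apply, map_mul, Module.End.mul_apply]
    rw [pow_succ, hyc, map_add, map_add, ih, ← add_assoc, beta_succ, beta_succ, hf, map_add,
      ← Module.End.mul_apply, ← map_mul, ← pow_add]
    abel

section Period

variable {n : ℕ} (hxn : ∀ g, xf (g * φ ^ n) = xf g) (hBn : ∀ b, B.ρ (φ ^ n) b = b)
include hxn hBn

lemma stepF_add_period (j : ℕ) : stepF ψ xf yf φ (j + n) = stepF ψ xf yf φ j := by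
  unfold stepF
  rw [pow_add, hxn, map_mul, Module.End.mul_apply, hBn]

lemma beta_add_period (i : ℕ) :
    beta ψ xf yf φ (i + n) = beta ψ xf yf φ i + beta ψ xf yf φ n := by
  induction i with
  | zero => simp [beta_zero]
  | succ i ih =>
    rw [Nat.add_right_comm, beta_succ, ih, stepF_add_period hxn hBn, beta_succ]
    abel

lemma beta_add_mul (i s : ℕ) :
    beta ψ xf yf φ (i + n * s) = beta ψ xf yf φ i + s • beta ψ xf yf φ n := by
  induction s with
  | zero => simp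
  | succ s ih =>
    rw [Nat.mul_succ, ← add_assoc, beta_add_period hxn hBn, ih, succ_nsmul, add_assoc]

lemma beta_add_of_dvd {p : ℕ} (hpN : ∀ a b, p • ψ.toLin a b = 0) {d : ℕ} (hd : n * p ∣ d)
    (i : ℕ) : beta ψ xf yf φ (i + d) = beta ψ xf yf φ i := by
  obtain ⟨t, rfl⟩ := hd
  have h0 : p • beta ψ xf yf φ n = 0 := by
    unfold beta stepF
    rw [Finset.smul_sum]
    exact Finset.sum_eq_zero fun j _ => hpN _ _
  rw [mul_assoc, beta_add_mul hxn hBn, mul_nsmul, h0, smul_zero, add_zero]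

end Period

/-- The bounding cochain.  `H'` is a normal subgroup modulo which `G` is generated by `φ`
(`h1`), the order of `φ` modulo `H'` is divisible by `n * p` (`h2`), where `φ ^ n` already acts
trivially on everything (`hxn`, `hBn`); `x`, `y` are right `H'`-invariant and `H'` acts trivially
on `B` and on the values of `ψ`. -/
theorem exists_bounding (hxc : ∀ g h, xf (g * h) = xf g + A.ρ g (xf h))
    (hyc : ∀ g h, yf (g * h) = yf g + B.ρ g (yf h))
    (H' : Subgroup G) [H'.Normal] (h1 : ∀ g : G, ∃ i : ℕ, ∃ h ∈ H', g = φ ^ i * h)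
    {n p : ℕ} (h2 : ∀ i : ℕ, φ ^ i ∈ H' → n * p ∣ i)
    (hxn : ∀ g, xf (g * φ ^ n) = xf g) (hBn : ∀ b, B.ρ (φ ^ n) b = b)
    (hxH : ∀ h ∈ H', ∀ g, xf (g * h) = xf g) (hyH : ∀ h ∈ H', ∀ g, yf (g * h) = yf g)
    (hBH : ∀ h ∈ H', ∀ b, B.ρ h b = b)
    (hNH : ∀ h ∈ H', ∀ a b, N.ρ h (ψ.toLin a b) = ψ.toLin a b)
    (hpN : ∀ a b, p • ψ.toLin a b = 0) :
    ∃ bf : G → N.V, (∀ g, ∀ h ∈ H', bf (g * h) = bf g) ∧ (∀ g, ∀ h ∈ H', N.ρ h (bf g) = bf g) ∧
      ∀ g g', N.ρ g (bf g') - bf (g * g') + bf g = ψ.toLin (xf g) (B.ρ g (yf g')) := by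
  choose idx hidx using h1
  -- `beta` is fixed by `H'`
  have hfix : ∀ i : ℕ, ∀ h ∈ H', N.ρ h (beta ψ xf yf φ i) = beta ψ xf yf φ i := by
    intro i h hh
    unfold beta stepF
    rw [map_sum]
    exact Finset.sum_congr rfl fun j _ => hNH h hh _ _
  -- well-definedness
  have hW : ∀ (g : G) (i : ℕ), (∃ h ∈ H', g = φ ^ i * h) →
      beta ψ xf yf φ (idx g) = beta ψ xf yf φ i := by
    rintro g i ⟨h, hh, e⟩
    obtain ⟨h₀, hh₀, e₀⟩ := hidx g
    rcases le_total (idx g) i with hle | hle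
    · obtain ⟨d, rfl⟩ := Nat.exists_eq_add_of_le hle
      have key : φ ^ idx g * h₀ = φ ^ idx g * (φ ^ d * h) := by
        rw [← mul_assoc, ← pow_add]
        exact e₀.symm.trans e
      have hd : φ ^ d = h₀ * h⁻¹ := eq_mul_inv_of_mul_eq (mul_left_cancel key).symm
      have hmem : φ ^ d ∈ H' := hd ▸ H'.mul_mem hh₀ (H'.inv_mem hh)
      exact (beta_add_of_dvd hxn hBn hpN (h2 d hmem) _).symm
    · obtain ⟨d, hd'⟩ := Nat.exists_eq_add_of_le hle
      have key : φ ^ i * h = φ ^ i * (φ ^ d * h₀) := by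
        rw [← mul_assoc, ← pow_add, ← hd']
        exact e.symm.trans e₀
      have hd : φ ^ d = h * h₀⁻¹ := eq_mul_inv_of_mul_eq (mul_left_cancel key).symm
      have hmem : φ ^ d ∈ H' := hd ▸ H'.mul_mem hh (H'.inv_mem hh₀)
      rw [hd']
      exact beta_add_of_dvd hxn hBn hpN (h2 d hmem) _
  refine ⟨fun g => - beta ψ xf yf φ (idx g), fun g h hh => ?_, fun g h hh => ?_, fun g g' => ?_⟩
  · obtain ⟨h₀, hh₀, e₀⟩ := hidx g
    have : beta ψ xf yf φ (idx (g * h)) = beta ψ xf yf φ (idx g) :=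
      hW (g * h) (idx g) ⟨h₀ * h, H'.mul_mem hh₀ hh, by rw [← mul_assoc, ← e₀]⟩
    simp only [this]
  · simp only [map_neg, hfix _ h hh]
  · obtain ⟨h, hh, e⟩ := hidx g
    obtain ⟨h', hh', e'⟩ := hidx g'
    set i := idx g with hi
    set m := idx g' with hm
    have hprod : beta ψ xf yf φ (idx (g * g')) = beta ψ xf yf φ (i + m) := by
      refine hW (g * g') (i + m) ⟨(φ ^ m)⁻¹ * h * φ ^ m * h', H'.mul_mem ?_ hh', ?_⟩
      · have := Subgroup.Normal.conj_mem (inferInstance : H'.Normal) h hh (φ ^ m)⁻¹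
        simpa using this
      · rw [e, e', pow_add]; group
    have hc : ψ.toLin (xf g) (B.ρ g (yf g')) =
        ψ.toLin (xf (φ ^ i)) (B.ρ (φ ^ i) (yf (φ ^ m))) := by
      rw [e, e', hxH h hh, hyH h' hh', map_mul, Module.End.mul_apply, hBH h hh]
    have hg : N.ρ g (beta ψ xf yf φ m) = N.ρ (φ ^ i) (beta ψ xf yf φ m) := by
      rw [e, map_mul, Module.End.mul_apply, hfix _ h hh]
    beta_reduce
    rw [hc, cup_pow_pow hxc hyc, hprod, map_neg, hg]
    abel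

end Core

/-! ### Level-constant cochains in degree one as functions -/

section Main

variable {k G : Type} [CommRing k] [Group G]

/-- A finite smooth module is fixed pointwise by some level. -/
lemma exists_level_fixing (𝒰 : Levels G) {A : Rep.{0} k G} [Finite A.V] (smA : IsSmooth 𝒰 A) :
    ∃ U ∈ 𝒰.sets, ∀ s ∈ U, ∀ a : A.V, A.ρ s a = a := by
  classical
  have := Fintype.ofFinite A.V
  choose W hW hWfix using smA
  obtain ⟨V, hV, hle⟩ := 𝒰.exists_le_finset Finset.univ W (fun a _ => hW a)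
  exact ⟨V, hV, fun s hs a => hWfix a s (hle a (Finset.mem_univ a) hs)⟩

lemma eq_inv_fun {A : Rep.{0} k G} (f : (Fin 1 → G) → A.V) :
    f = (cochainsIso₁ A).inv (fun g => f (fun _ => g)) := by
  funext g
  rw [cochainsIso₁_inv_apply]
  congr 1
  funext i
  rw [Subsingleton.elim i 0]

/-- The cocycle relation of a level-constant `1`-cocycle, in function form. -/
lemma cocycle_mul (𝒰 : Levels G) {A : Rep.{0} k G} (x : cocyclesLC 𝒰 A 1) (g h : G) :
    x.1.1 (fun _ => g * h) = x.1.1 (fun _ => g) + A.ρ g (x.1.1 (fun _ => h)) := by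
  have hx := (mem_cocyclesLC_iff 𝒰 A x.1).1 x.2
  rw [eq_inv_fun x.1.1, d_inv₁] at hx
  have h2 : (cochainsIso₂ A).inv ((d₁₂ A).hom fun g => x.1.1 fun _ => g) ![g, h] = (0 : A.V) := by
    rw [hx]; rfl
  rw [cochainsIso₂_inv_apply, d₁₂_hom_apply] at h2
  simp only [Matrix.cons_val_zero, Matrix.cons_val_one] at h2
  rw [sub_add_eq_add_sub, sub_eq_zero] at h2
  rw [← h2, add_comm]

/-- Right invariance of a level-constant `1`-cochain, in function form. -/
lemma lcAt_mul {U : Subgroup G} {A : Rep.{0} k G} {f : (Fin 1 → G) → A.V} (hf : IsLCAt U A f)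
    (g : G) {u : G} (hu : u ∈ U) : f (fun _ => g * u) = f (fun _ => g) :=
  hf.1 (fun _ => g) (fun _ => u) (fun _ => hu)

set_option linter.unusedVariables false in
/-- **(P2-a)** The cup product of two unramified classes of degree one is zero.  (`smN`, `hA` are
consequences of the other hypotheses; they are kept so that the statement is the literal one.) -/
theorem cupLC_eq_zero_of_unr (𝒰 : Levels G) [𝒰.IsFin]
    (I : Subgroup G) [I.Normal] (φ : G)
    (hPC : ∀ U ∈ 𝒰.sets, ∀ g : G, ∃ i : ℕ, ∃ s ∈ I, ∃ u ∈ U, g = φ ^ i * s * u)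
    (hUE : ∀ m : ℕ, 0 < m → ∃ U ∈ 𝒰.sets, ∀ i : ℕ, (∃ s ∈ I, ∃ u ∈ U, φ ^ i = s * u) → m ∣ i)
    {A B N : Rep.{0} k G} [Finite A.V] [Finite B.V]
    (smA : IsSmooth 𝒰 A) (smB : IsSmooth 𝒰 B) (smN : IsSmooth 𝒰 N) (ψ : Pairing A B N)
    (hA : ∀ s ∈ I, ∀ a : A.V, A.ρ s a = a) (hB : ∀ s ∈ I, ∀ b : B.V, B.ρ s b = b)
    (hN : ∀ s ∈ I, ∀ a b, N.ρ s (ψ.toLin a b) = ψ.toLin a b)
    (p : ℕ) (hp : 0 < p) (hpN : ∀ a b, p • ψ.toLin a b = 0)
    (x : cocyclesLC 𝒰 A 1) (y : cocyclesLC 𝒰 B 1)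
    (hx : ∀ s ∈ I, x.1.1 (fun _ => s) = 0) (hy : ∀ s ∈ I, y.1.1 (fun _ => s) = 0) :
    cupLC 𝒰 ψ (show 1 + 1 = 2 from rfl) (Hπ 𝒰 A 1 x) (Hπ 𝒰 B 1 y) = 0 := by
  classical
  have hxc : ∀ g h : G, x.1.1 (fun _ => g * h) = x.1.1 (fun _ => g) + A.ρ g (x.1.1 fun _ => h) :=
    cocycle_mul 𝒰 x
  have hyc : ∀ g h : G, y.1.1 (fun _ => g * h) = y.1.1 (fun _ => g) + B.ρ g (y.1.1 fun _ => h) :=
    cocycle_mul 𝒰 y
  obtain ⟨Ux, hUx, hxU⟩ := x.1.2
  obtain ⟨Uy, hUy, hyU⟩ := y.1.2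
  obtain ⟨UA, hUA, hAfix⟩ := exists_level_fixing 𝒰 smA
  obtain ⟨UB, hUB, hBfix⟩ := exists_level_fixing 𝒰 smB
  obtain ⟨V1, hV1, hV1le⟩ := 𝒰.directed Ux hUx Uy hUy
  obtain ⟨V2, hV2, hV2le⟩ := 𝒰.directed UA hUA UB hUB
  obtain ⟨U₁, hU₁, hU₁le⟩ := 𝒰.directed V1 hV1 V2 hV2
  have hU₁x : U₁ ≤ Ux := (hU₁le.trans inf_le_left).trans (hV1le.trans inf_le_left)
  have hU₁y : U₁ ≤ Uy := (hU₁le.trans inf_le_left).trans (hV1le.trans inf_le_right)
  have hU₁A : U₁ ≤ UA := (hU₁le.trans inf_le_right).trans (hV2le.trans inf_le_left)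
  have hU₁B : U₁ ≤ UB := (hU₁le.trans inf_le_right).trans (hV2le.trans inf_le_right)
  have : U₁.Normal := 𝒰.normal U₁ hU₁
  have : U₁.FiniteIndex := Levels.IsFin.finiteIndex U₁ hU₁
  have hn0 : 0 < U₁.index := Nat.pos_of_ne_zero Subgroup.FiniteIndex.index_ne_zero
  have hφn : φ ^ U₁.index ∈ U₁ := Subgroup.pow_index_mem U₁ φ
  obtain ⟨Um, hUm, hUmdiv⟩ := hUE (U₁.index * p) (Nat.mul_pos hn0 hp)
  obtain ⟨U', hU', hU'le⟩ := 𝒰.directed U₁ hU₁ Um hUm
  have hU'1 : U' ≤ U₁ := hU'le.trans inf_le_left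
  have hU'm : U' ≤ Um := hU'le.trans inf_le_right
  have : U'.Normal := 𝒰.normal U' hU'
  have hmemH : ∀ h ∈ I ⊔ U', ∃ s ∈ I, ∃ u ∈ U', s * u = h := by
    intro h hh
    have h' : h ∈ (↑(I ⊔ U') : Set G) := hh
    rw [Subgroup.normal_mul] at h'
    exact Set.mem_mul.1 h'
  obtain ⟨bf, hb1, hb2, hb3⟩ := exists_bounding (ψ := ψ) (xf := fun g => x.1.1 fun _ => g)
    (yf := fun g => y.1.1 fun _ => g) (φ := φ) hxc hyc (I ⊔ U')
    (fun g => by
      obtain ⟨i, s, hs, u, hu, e⟩ := hPC U' hU' g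
      exact ⟨i, s * u, Subgroup.mul_mem_sup hs hu, by rw [e, mul_assoc]⟩)
    (n := U₁.index) (p := p)
    (fun i hi => by
      obtain ⟨s, hs, u, hu, e⟩ := hmemH _ hi
      exact hUmdiv i ⟨s, hs, u, hU'm hu, e.symm⟩)
    (fun g => lcAt_mul hxU g (hU₁x hφn))
    (fun b => hBfix _ (hU₁B hφn) b)
    (fun h hh g => by
      obtain ⟨s, hs, u, hu, rfl⟩ := hmemH h hh
      rw [← mul_assoc, lcAt_mul hxU _ (hU₁x (hU'1 hu)), hxc, hx s hs, map_zero, add_zero])
    (fun h hh g => by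
      obtain ⟨s, hs, u, hu, rfl⟩ := hmemH h hh
      rw [← mul_assoc, lcAt_mul hyU _ (hU₁y (hU'1 hu)), hyc, hy s hs, map_zero, add_zero])
    (fun h hh b => by
      obtain ⟨s, hs, u, hu, rfl⟩ := hmemH h hh
      rw [map_mul, Module.End.mul_apply, hBfix u (hU₁B (hU'1 hu)), hB s hs])
    (fun h hh a b => by
      obtain ⟨s, hs, u, hu, rfl⟩ := hmemH h hh
      rw [map_mul, Module.End.mul_apply, ψ.ρ_apply u, hAfix u (hU₁A (hU'1 hu)),
        hBfix u (hU₁B (hU'1 hu)), hN s hs])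
    hpN
  have hbLC : IsLC 𝒰 N ((cochainsIso₁ N).inv bf) :=
    ⟨U', hU', (isLCAt_inv₁ bf).2
      ⟨fun g s hs => hb1 g s (Subgroup.mem_sup_right hs),
        fun g s hs => hb2 g s (Subgroup.mem_sup_right hs)⟩⟩
  rw [cupLC_Hπ, Hπ_eq_zero_iff_succ]
  refine ⟨⟨(cochainsIso₁ N).inv bf, hbLC⟩, ?_⟩
  apply Subtype.ext
  rw [dLC_coe, d_inv₁]
  funext g
  rw [cochainsIso₂_inv_apply, d₁₂_hom_apply, hb3]
  change _ = cupFun ψ (show 1 + 1 = 2 from rfl) x.1.1 y.1.1 g
  rw [cupFun_apply, prodFst_one]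
  have e1 : tupleFst (show 1 + 1 = 2 from rfl) g = fun _ => g 0 := by
    funext i
    rw [Subsingleton.elim i 0]
    rfl
  have e2 : tupleSnd (show 1 + 1 = 2 from rfl) g = fun _ => g 1 := by
    funext i
    rw [Subsingleton.elim i 0]
    rfl
  rw [e1, e2]
  rfl

end Main

end Fermat.Agent.S56.Base.Pairing.UnrCup
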